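import Mathlib
import Fermat.Prelude.Def_FLTPrelim_Modularity
import Fermat.Prelude.Def_ModularForm_HeckeOperatorForms
import Fermat.Prelude.Def_CuspForm_HeckeAlgebra
import Fermat.Prelude.Def_CuspForm_IntegralStructure
import Fermat.Prelude.Thm_CongruenceSubgroup_one_mem_strictPeriods_Gamma0
import Fermat.Prelude.Thm_ModularFormClass_qCoeff_heckeT
import Fermat.Prelude.Thm_ModularFormClass_qCoeff_heckeU
import Fermat.Prelude.Thm_UpperHalfPlane_eq_of_forall_qCoeff_eq

/-!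
# q-coefficients of cusp forms on `Γ₀(N)`: linearity, vanishing at `0`, Hecke action
-/

set_option autoImplicit false

namespace Fermat.Agent.S49

open CuspForm CongruenceSubgroup ModularFormClass UpperHalfPlane

variable {N : ℕ} {k : ℤ}

theorem one_mem_strictPeriods (N : ℕ) :
    (1 : ℝ) ∈ (Subgroup.map (Matrix.SpecialLinearGroup.mapGL ℝ) (Gamma0 N)).strictPeriods :=
  CongruenceSubgroup.one_mem_strictPeriods_Gamma0 N

theorem qCoeff_add (f g : CuspForm (Gamma0 N) k) (n : ℕ) :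
    qCoeff ⇑(f + g) n = qCoeff ⇑f n + qCoeff ⇑g n := by
  simp only [qCoeff, FunLike.coe_add]
  rw [ModularForm.qExpansion_add one_pos (one_mem_strictPeriods N) f g, map_add]

theorem qCoeff_zero_form (n : ℕ) : qCoeff ⇑(0 : CuspForm (Gamma0 N) k) n = 0 := by
  simp only [qCoeff, FunLike.coe_zero]
  rw [UpperHalfPlane.qExpansion_zero, map_zero]

theorem qCoeff_smul (c : ℂ) (f : CuspForm (Gamma0 N) k) (n : ℕ) :
    qCoeff ⇑(c • f) n = c * qCoeff ⇑f n := by
  have h1 : ⇑(c • f) = c • ⇑f := by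
    ext z
    simp
  simp only [qCoeff, h1]
  rw [ModularForm.qExpansion_smul one_pos (one_mem_strictPeriods N) c f]
  simp

theorem qCoeff_neg (f : CuspForm (Gamma0 N) k) (n : ℕ) :
    qCoeff ⇑(-f) n = - qCoeff ⇑f n := by
  have : -f = (-1 : ℂ) • f := by simp
  rw [this, qCoeff_smul]; ring

theorem qCoeff_sub (f g : CuspForm (Gamma0 N) k) (n : ℕ) :
    qCoeff ⇑(f - g) n = qCoeff ⇑f n - qCoeff ⇑g n := by
  rw [sub_eq_add_neg, qCoeff_add, qCoeff_neg, sub_eq_add_neg]

theorem qCoeff_zsmul (c : ℤ) (f : CuspForm (Gamma0 N) k) (n : ℕ) :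
    qCoeff ⇑(c • f) n = c * qCoeff ⇑f n := by
  have : c • f = (c : ℂ) • f := by
    rw [Int.cast_smul_eq_zsmul]
  rw [this, qCoeff_smul]

/-- The constant term of a cusp form vanishes. -/
theorem qCoeff_at_zero (f : CuspForm (Gamma0 N) k) : qCoeff ⇑f 0 = 0 := by
  simp only [qCoeff]
  exact CuspFormClass.qExpansion_coeff_zero f one_pos (one_mem_strictPeriods N)

/-- q-expansion principle for cusp forms on `Γ₀(N)`. -/
theorem cuspForm_eq_zero_of_qCoeff {f : CuspForm (Gamma0 N) k}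
    (h : ∀ n : ℕ, qCoeff ⇑f n = 0) : f = 0 := by
  have hcusp : Fact (IsCusp OnePoint.infty
      (Subgroup.map (Matrix.SpecialLinearGroup.mapGL ℝ) (Gamma0 N))) :=
    ⟨Subgroup.isCusp_of_mem_strictPeriods one_pos (one_mem_strictPeriods N)⟩
  have hq : qExpansion 1 ⇑f = 0 := by
    ext n
    rw [map_zero]
    exact h n
  have h0 : (⇑f : ℍ → ℂ) = 0 :=
    (UpperHalfPlane.qExpansion_eq_zero_iff one_pos
      (SlashInvariantFormClass.periodic_comp_ofComplex f (one_mem_strictPeriods N))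
      (ModularFormClass.holo f) (ModularFormClass.bdd_at_infty f)).mp hq
  apply DFunLike.coe_injective
  rw [h0]
  rfl

theorem cuspForm_ext_qCoeff {f g : CuspForm (Gamma0 N) k}
    (h : ∀ n : ℕ, qCoeff ⇑f n = qCoeff ⇑g n) : f = g := by
  rw [← sub_eq_zero]
  apply cuspForm_eq_zero_of_qCoeff
  intro n
  rw [qCoeff_sub, h n, sub_self]

theorem qCoeff_heckeTLin {p : ℕ} (hp : p.Prime) (hpN : ¬ p ∣ N)
    (f : CuspForm (Gamma0 N) k) (n : ℕ) :
    qCoeff ⇑(CuspForm.heckeTLin k hp hpN f) n =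
      qCoeff ⇑f (n * p) + if p ∣ n then (p : ℂ) ^ (k - 1) * qCoeff ⇑f (n / p) else 0 := by
  rw [CuspForm.coe_heckeTLin_apply,
    ModularFormClass.qCoeff_heckeT f (one_mem_strictPeriods N) hp.ne_zero n,
    ModularForm.coeffHeckeT_apply]

theorem qCoeff_heckeULin [NeZero N] {p : ℕ} (hp : p ≠ 0) (hpN : p ∣ N)
    (f : CuspForm (Gamma0 N) k) (n : ℕ) :
    qCoeff ⇑(CuspForm.heckeULin k hpN f) n = qCoeff ⇑f (n * p) := by
  rw [CuspForm.coe_heckeULin_apply,
    ModularFormClass.qCoeff_heckeU f (one_mem_strictPeriods N) hp n,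
    ModularForm.coeffHeckeU_apply]

end Fermat.Agent.S49
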