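import Mathlib
import Fermat.Prelude.Def_FormalHecke_Eigensystem

/-!
# Formal Hecke eigensystems: multiplicativity and prime-power recursion

Pure arithmetic: a function `a : ℕ → R` with `a 1 = 1` satisfying the Hecke relations
`a (ℓ n) + e ℓ * [ℓ ∣ n] a (n / ℓ) = a ℓ * a n` for all primes `ℓ` is multiplicative and satisfies
the usual prime-power recursion.
-/

set_option autoImplicit false

namespace Fermat.Agent.S49

open FormalHecke

variable {R : Type*} [CommRing R]

theorem formal_prime_pow {e a : ℕ → R} (h : IsEigensystem e a) (ℓ r : ℕ) (hℓ : ℓ.Prime) :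
    a (ℓ ^ (r + 2)) = a ℓ * a (ℓ ^ (r + 1)) - e ℓ * a (ℓ ^ r) := by
  have h2 := h.2 ℓ hℓ (ℓ ^ (r + 1))
  have hdvd : ℓ ∣ ℓ ^ (r + 1) := dvd_pow_self ℓ (Nat.succ_ne_zero r)
  rw [if_pos hdvd] at h2
  have hdiv : ℓ ^ (r + 1) / ℓ = ℓ ^ r := by
    rw [pow_succ, Nat.mul_div_cancel _ hℓ.pos]
  rw [hdiv] at h2
  have hpow : ℓ ^ (r + 2) = ℓ * ℓ ^ (r + 1) := by ring
  rw [hpow, ← h2]
  ring

theorem formal_mul_of_coprime {e a : ℕ → R} (h : IsEigensystem e a) :
    ∀ m n : ℕ, m.Coprime n → a (m * n) = a m * a n := by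
  intro m
  induction m using Nat.strong_induction_on with
  | _ m ih =>
    intro n hmn
    rcases Nat.eq_zero_or_pos m with hm0 | hmpos
    · subst hm0
      have hn : n = 1 := by simpa using hmn
      subst hn
      simp [h.1]
    rcases Nat.eq_or_lt_of_le (Nat.one_le_of_lt hmpos) with hm1 | hm1
    · have : m = 1 := hm1.symm
      subst this
      simp [h.1]
    -- m ≥ 2: pick a prime factor
    obtain ⟨ℓ, hℓ, hℓm⟩ := Nat.exists_prime_and_dvd (show m ≠ 1 by omega)
    obtain ⟨m', rfl⟩ := hℓm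
    have hm'pos : 0 < m' := by
      rcases Nat.eq_zero_or_pos m' with h0 | h0
      · subst h0; simp at hmpos
      · exact h0
    have hm'lt : m' < ℓ * m' := by
      have := hℓ.one_lt
      nlinarith
    have hℓn : Nat.Coprime ℓ n := Nat.Coprime.coprime_dvd_left (Dvd.intro _ rfl) hmn
    have hm'n : Nat.Coprime m' n := Nat.Coprime.coprime_dvd_left (Dvd.intro_left _ rfl) hmn
    have key1 := h.2 ℓ hℓ (m' * n)
    have key2 := h.2 ℓ hℓ m'
    have hdvd_iff : ℓ ∣ m' * n ↔ ℓ ∣ m' := by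
      constructor
      · intro hd
        exact (Nat.Coprime.dvd_mul_right hℓn).mp hd
      · intro hd
        exact Dvd.dvd.mul_right hd n
    have e1 : a (ℓ * m' * n) = a ℓ * a (m' * n)
        - e ℓ * (if ℓ ∣ m' * n then a (m' * n / ℓ) else 0) := by
      rw [mul_assoc, ← key1]; ring
    have e2 : a (ℓ * m') = a ℓ * a m' - e ℓ * (if ℓ ∣ m' then a (m' / ℓ) else 0) := by
      rw [← key2]; ring
    rw [e1, e2, ih m' hm'lt n hm'n]
    by_cases hd : ℓ ∣ m'
    · rw [if_pos hd, if_pos (hdvd_iff.mpr hd)]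
      obtain ⟨m'', rfl⟩ := hd
      have hm''pos : 0 < m'' := by
        rcases Nat.eq_zero_or_pos m'' with h0 | h0
        · subst h0; simp at hm'pos
        · exact h0
      have hm''lt : m'' < ℓ * (ℓ * m'') := by
        have := hℓ.one_lt
        nlinarith
      have hm''n : Nat.Coprime m'' n := Nat.Coprime.coprime_dvd_left (Dvd.intro_left _ rfl) hm'n
      have hq1 : ℓ * m'' * n / ℓ = m'' * n := by
        rw [mul_assoc, Nat.mul_div_cancel_left _ hℓ.pos]
      have hq2 : ℓ * m'' / ℓ = m'' := Nat.mul_div_cancel_left _ hℓ.pos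
      rw [hq1, hq2, ih m'' hm''lt n hm''n]
      ring
    · rw [if_neg hd, if_neg (fun hd' => hd (hdvd_iff.mp hd'))]
      ring

/-- A formal Hecke eigensystem is recursive. -/
theorem formal_isRecursive {e a : ℕ → R} (h : IsEigensystem e a) : IsRecursive e a :=
  ⟨h.1, formal_mul_of_coprime h, fun ℓ r hℓ => formal_prime_pow h ℓ r hℓ⟩

end Fermat.Agent.S49
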