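import Mathlib
import Fermat.Prelude.Def_CuspForm_HeckeAlgebra
import Fermat.Prelude.Def_FormalHecke_Eigensystem
import Fermat.Agent.S49.QCoeff
import Fermat.Agent.S49.Formal

/-!
# From a simultaneous Hecke eigenvector to a normalised eigenform
-/

set_option autoImplicit false
set_option linter.style.haveILetI false

namespace Fermat.Agent.S49

open CuspForm CongruenceSubgroup ModularFormClass FormalHecke

variable {N : ℕ} [NeZero N]

/-- The "weight two, trivial character" Euler factor datum: `e ℓ = ℓ` for `ℓ ∤ N`, `0` else. -/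
noncomputable def levelChar (N : ℕ) (ℓ : ℕ) : ℂ := if ℓ ∣ N then 0 else (ℓ : ℂ)

/-- A function on primes recording the eigenvalues of `T_ℓ` / `U_ℓ`. -/
noncomputable def eigenvalueAt (χ : heckeAlgebra N 2 ∅ →+* ℂ) (ℓ : ℕ) : ℂ := by
  classical
  exact if hℓ : ℓ.Prime then
    (if hN : ℓ ∣ N then χ (heckeAlgebra.U hℓ hN (Set.notMem_empty ℓ))
      else χ (heckeAlgebra.T hℓ hN (Set.notMem_empty ℓ)))
    else 0

theorem eigenvalueAt_of_not_dvd (χ : heckeAlgebra N 2 ∅ →+* ℂ) {ℓ : ℕ} (hℓ : ℓ.Prime)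
    (hN : ¬ ℓ ∣ N) : eigenvalueAt χ ℓ = χ (heckeAlgebra.T hℓ hN (Set.notMem_empty ℓ)) := by
  unfold eigenvalueAt
  rw [dif_pos hℓ, dif_neg hN]

theorem eigenvalueAt_of_dvd (χ : heckeAlgebra N 2 ∅ →+* ℂ) {ℓ : ℕ} (hℓ : ℓ.Prime)
    (hN : ℓ ∣ N) : eigenvalueAt χ ℓ = χ (heckeAlgebra.U hℓ hN (Set.notMem_empty ℓ)) := by
  unfold eigenvalueAt
  rw [dif_pos hℓ, dif_pos hN]

/-- The q-coefficients of a simultaneous eigenvector satisfy the Hecke relations. -/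
theorem qCoeff_eigen_relation (χ : heckeAlgebra N 2 ∅ →+* ℂ) (v : CuspForm (Gamma0 N) 2)
    (hv : ∀ T : heckeAlgebra N 2 ∅,
      (T : Module.End ℂ (CuspForm (Gamma0 N) 2)) v = χ T • v)
    {ℓ : ℕ} (hℓ : ℓ.Prime) (n : ℕ) :
    qCoeff ⇑v (ℓ * n) + levelChar N ℓ * (if ℓ ∣ n then qCoeff ⇑v (n / ℓ) else 0)
      = eigenvalueAt χ ℓ * qCoeff ⇑v n := by
  by_cases hN : ℓ ∣ N
  · rw [eigenvalueAt_of_dvd χ hℓ hN, levelChar, if_pos hN, zero_mul, add_zero]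
    have h1 := hv (heckeAlgebra.U hℓ hN (Set.notMem_empty ℓ))
    rw [heckeAlgebra.coe_U] at h1
    have h2 : qCoeff ⇑(_ : CuspForm (Gamma0 N) 2) n = qCoeff ⇑(_ : CuspForm (Gamma0 N) 2) n :=
      congrArg (fun f : CuspForm (Gamma0 N) 2 => qCoeff ⇑f n) h1
    rw [qCoeff_heckeULin hℓ.ne_zero, qCoeff_smul] at h2
    rw [mul_comm ℓ n]
    exact h2
  · rw [eigenvalueAt_of_not_dvd χ hℓ hN, levelChar, if_neg hN]
    have h1 := hv (heckeAlgebra.T hℓ hN (Set.notMem_empty ℓ))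
    rw [heckeAlgebra.coe_T] at h1
    have h2 : qCoeff ⇑(_ : CuspForm (Gamma0 N) 2) n = qCoeff ⇑(_ : CuspForm (Gamma0 N) 2) n :=
      congrArg (fun f : CuspForm (Gamma0 N) 2 => qCoeff ⇑f n) h1
    rw [qCoeff_heckeTLin, qCoeff_smul] at h2
    have h21 : ((2 : ℤ) - 1) = 1 := by norm_num
    rw [h21, zpow_one] at h2
    rw [mul_comm ℓ n, ← h2]
    split_ifs <;> ring

/-- If the first coefficient of a sequence satisfying the Hecke relations vanishes (and the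
zeroth one too), the sequence vanishes. -/
theorem eq_zero_of_relation {e c b : ℕ → ℂ}
    (hrel : ∀ ℓ : ℕ, ℓ.Prime → ∀ n : ℕ,
      b (ℓ * n) + e ℓ * (if ℓ ∣ n then b (n / ℓ) else 0) = c ℓ * b n)
    (h0 : b 0 = 0) (h1 : b 1 = 0) : ∀ n, b n = 0 := by
  intro n
  induction n using Nat.strong_induction_on with
  | _ n ih =>
    rcases Nat.eq_zero_or_pos n with hn0 | hnpos
    · rw [hn0]; exact h0
    rcases Nat.eq_or_lt_of_le (Nat.one_le_of_lt hnpos) with hn1 | hn1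
    · rw [← hn1]; exact h1
    obtain ⟨ℓ, hℓ, hℓn⟩ := Nat.exists_prime_and_dvd (show n ≠ 1 by omega)
    obtain ⟨m, rfl⟩ := hℓn
    have hmpos : 0 < m := by
      rcases Nat.eq_zero_or_pos m with h | h
      · subst h; simp at hnpos
      · exact h
    have hmlt : m < ℓ * m := by
      have := hℓ.one_lt
      nlinarith
    have hdivlt : m / ℓ < ℓ * m := lt_of_le_of_lt (Nat.div_le_self m ℓ) hmlt
    have h := hrel ℓ hℓ m
    rw [ih m hmlt, ih (m / ℓ) hdivlt] at h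
    simp only [ite_self, mul_zero, add_zero] at h
    exact h

theorem exists_normalized_eigenform (χ : heckeAlgebra N 2 ∅ →+* ℂ)
    (v : CuspForm (Gamma0 N) 2) (hv0 : v ≠ 0)
    (hv : ∀ T : heckeAlgebra N 2 ∅,
      (T : Module.End ℂ (CuspForm (Gamma0 N) 2)) v = χ T • v) :
    ∃ f : CuspForm (Gamma0 N) 2, f.IsNormalizedEigenform ∧
      ∀ (ℓ : ℕ) (hℓ : ℓ.Prime) (hℓN : ¬ ℓ ∣ N),
        qCoeff ⇑f ℓ = χ (heckeAlgebra.T hℓ hℓN (Set.notMem_empty ℓ)) := by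
  have hrel := fun (ℓ : ℕ) (hℓ : ℓ.Prime) (n : ℕ) => qCoeff_eigen_relation χ v hv hℓ n
  have hb1 : qCoeff ⇑v 1 ≠ 0 := by
    intro h1
    apply hv0
    apply cuspForm_eq_zero_of_qCoeff
    exact eq_zero_of_relation (e := levelChar N) (c := eigenvalueAt χ) hrel (qCoeff_at_zero v) h1
  set f : CuspForm (Gamma0 N) 2 := (qCoeff ⇑v 1)⁻¹ • v with hf
  have hfcoeff : ∀ n, qCoeff ⇑f n = (qCoeff ⇑v 1)⁻¹ * qCoeff ⇑v n := fun n => qCoeff_smul _ _ _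
  have hf1 : qCoeff ⇑f 1 = 1 := by
    rw [hfcoeff, inv_mul_cancel₀ hb1]
  have hfrel : ∀ ℓ : ℕ, ℓ.Prime → ∀ n : ℕ,
      qCoeff ⇑f (ℓ * n) + levelChar N ℓ * (if ℓ ∣ n then qCoeff ⇑f (n / ℓ) else 0)
        = eigenvalueAt χ ℓ * qCoeff ⇑f n := by
    intro ℓ hℓ n
    rw [hfcoeff, hfcoeff, hfcoeff]
    have := hrel ℓ hℓ n
    have h2 : (qCoeff ⇑v 1)⁻¹ * qCoeff ⇑v (ℓ * n)
        + levelChar N ℓ * (if ℓ ∣ n then (qCoeff ⇑v 1)⁻¹ * qCoeff ⇑v (n / ℓ) else 0)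
        = (qCoeff ⇑v 1)⁻¹ * (qCoeff ⇑v (ℓ * n)
          + levelChar N ℓ * (if ℓ ∣ n then qCoeff ⇑v (n / ℓ) else 0)) := by
      split_ifs <;> ring
    rw [h2, this]
    ring
  have hfℓ : ∀ ℓ : ℕ, ℓ.Prime → qCoeff ⇑f ℓ = eigenvalueAt χ ℓ := by
    intro ℓ hℓ
    have := hfrel ℓ hℓ 1
    have hnd : ¬ ℓ ∣ 1 := by
      intro h
      exact hℓ.one_lt.ne' (Nat.dvd_one.mp h)
    rw [if_neg hnd, mul_zero, add_zero, mul_one, hf1, mul_one] at this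
    exact this
  have heig : IsEigensystem (levelChar N) (fun n => qCoeff ⇑f n) := by
    refine ⟨hf1, ?_⟩
    intro ℓ hℓ n
    show qCoeff ⇑f (ℓ * n) + levelChar N ℓ * (if ℓ ∣ n then qCoeff ⇑f (n / ℓ) else 0)
      = qCoeff ⇑f ℓ * qCoeff ⇑f n
    rw [hfrel ℓ hℓ n, hfℓ ℓ hℓ]
  have hrec := formal_isRecursive heig
  refine ⟨f, ⟨hf1, hrec.2.1, ?_, ?_⟩, ?_⟩
  · intro p r hp hpN
    have := hrec.2.2 p r hp
    simp only [levelChar, if_neg hpN] at this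
    exact this
  · intro p r hp hpN
    have := hrec.2.2 p r hp
    simp only [levelChar, if_pos hpN, zero_mul, sub_zero] at this
    exact this
  · intro ℓ hℓ hℓN
    rw [hfℓ ℓ hℓ, eigenvalueAt_of_not_dvd χ hℓ hℓN]

end Fermat.Agent.S49
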