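import Mathlib

/-!
# The Deligne–Serre lifting lemma, abstract form

* `exists_eigenvector_character`: a commutative ring `R` acting faithfully on a finite-dimensional
  complex vector space `V`, and a prime ideal `I` of `R`: there is a simultaneous eigenvector whose
  eigencharacter `χ : R →+* ℂ` has kernel contained in `I`.
* `exists_maximal_over`: if moreover `R` is integral over `ℤ`, then `χ` lands in the algebraic
  integers and there is a maximal ideal of the ring of algebraic integers containing `χ(I)`.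
-/

set_option autoImplicit false
set_option linter.style.haveILetI false

namespace Fermat.Agent.S49

open Module

section Eigen

variable {V : Type*} [AddCommGroup V] [Module ℂ V] [FiniteDimensional ℂ V]
variable {R : Type*} [CommRing R]

theorem exists_eigenvector_character (φ : R →+* Module.End ℂ V)
    (hφ : Function.Injective φ) (I : Ideal R) [hI : I.IsPrime] :
    ∃ (χ : R →+* ℂ) (v : V), v ≠ 0 ∧ (∀ r, φ r v = χ r • v) ∧ RingHom.ker χ ≤ I := by
  classical
  -- the commutative ℂ-algebra generated by the image of `R`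
  have hcomm : ∀ a ∈ Set.range φ, ∀ b ∈ Set.range φ, a * b = b * a := by
    rintro _ ⟨r, rfl⟩ _ ⟨s, rfl⟩
    rw [← map_mul, ← map_mul, mul_comm]
  letI instA : CommRing (Algebra.adjoin ℂ (Set.range φ)) :=
    { (inferInstance : Ring (Algebra.adjoin ℂ (Set.range φ))) with
      mul_comm := by
        haveI := Algebra.isMulCommutative_adjoin ℂ hcomm
        exact fun a b => mul_comm' a b }
  let A := Algebra.adjoin ℂ (Set.range φ)
  let ι : R →+* A :=
    { toFun := fun r => ⟨φ r, Algebra.subset_adjoin ⟨r, rfl⟩⟩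
      map_one' := Subtype.ext (map_one φ)
      map_mul' := fun r s => Subtype.ext (map_mul φ r s)
      map_zero' := Subtype.ext (map_zero φ)
      map_add' := fun r s => Subtype.ext (map_add φ r s) }
  have hι : Function.Injective ι := fun r s h => hφ (congrArg Subtype.val h)
  have hιv : ∀ (r : R) (v : V), (ι r : A) • v = φ r v := fun r v => rfl
  haveI : IsArtinianRing A := IsArtinianRing.of_finite ℂ A
  haveI : Module.Finite A V := Module.Finite.of_restrictScalars_finite ℂ A V
  -- a prime of `A` disjoint from the image of the complement of `I`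
  let S : Submonoid A := Submonoid.map (ι : R →* A) I.primeCompl
  have hdisj : Disjoint ((⊥ : Ideal A) : Set A) (S : Set A) := by
    rw [Set.disjoint_left]
    rintro x hx ⟨r, hr, rfl⟩
    have hx0 : (ι r : A) = 0 := by simpa using hx
    have : r = 0 := hι (by rw [hx0, map_zero])
    exact hr (this ▸ I.zero_mem)
  obtain ⟨𝔫, h𝔫prime, -, h𝔫S⟩ := Ideal.exists_le_prime_disjoint (⊥ : Ideal A) S hdisj
  haveI := h𝔫prime
  haveI h𝔫max : 𝔫.IsMaximal := IsArtinianRing.isMaximal_of_isPrime 𝔫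
  -- `𝔫` is a minimal prime over the annihilator of `V`, which is zero
  have hann : Module.annihilator A V = ⊥ := by
    rw [eq_bot_iff]
    intro a ha
    rw [Module.mem_annihilator] at ha
    rw [Ideal.mem_bot]
    apply Subtype.ext
    apply LinearMap.ext
    intro v
    exact ha v
  have hmin : 𝔫 ∈ (Module.annihilator A V).minimalPrimes := by
    rw [hann]
    refine ⟨⟨h𝔫prime, bot_le⟩, ?_⟩
    rintro 𝔮 ⟨h𝔮prime, -⟩ h𝔮le
    haveI := h𝔮prime
    have h𝔮max : 𝔮.IsMaximal := IsArtinianRing.isMaximal_of_isPrime 𝔮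
    exact (h𝔮max.eq_of_le h𝔫prime.ne_top h𝔮le).ge
  have hass : 𝔫 ∈ associatedPrimes A V :=
    Module.associatedPrimes.minimalPrimes_annihilator_subset_associatedPrimes A V hmin
  obtain ⟨-, v, hv⟩ := (isAssociatedPrime_iff).mp hass
  have hv' : ∀ a : A, a ∈ 𝔫 ↔ a • v = 0 := by
    intro a
    rw [hv, Submodule.mem_colon_singleton, Submodule.mem_bot]
  have hvne : v ≠ 0 := by
    intro h0
    apply h𝔫prime.ne_top
    rw [Ideal.eq_top_iff_one, hv', h0, smul_zero]
  -- the residue field of `𝔫` is `ℂ`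
  letI : Field (A ⧸ 𝔫) := Ideal.Quotient.field 𝔫
  haveI : Algebra.IsIntegral ℂ (A ⧸ 𝔫) := Algebra.IsIntegral.of_finite ℂ (A ⧸ 𝔫)
  have hbij : Function.Bijective (algebraMap ℂ (A ⧸ 𝔫)) :=
    IsAlgClosed.algebraMap_bijective_of_isIntegral
  let e : ℂ ≃+* (A ⧸ 𝔫) := RingEquiv.ofBijective (algebraMap ℂ (A ⧸ 𝔫)) hbij
  let ψ : A →+* ℂ := (e.symm : (A ⧸ 𝔫) →+* ℂ).comp (Ideal.Quotient.mk 𝔫)
  have hψ : ∀ a : A, a - algebraMap ℂ A (ψ a) ∈ 𝔫 := by
    intro a
    rw [← Ideal.Quotient.eq]
    have h1 : e (ψ a) = Ideal.Quotient.mk 𝔫 a := by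
      simp only [ψ, RingHom.comp_apply, RingHom.coe_coe, RingEquiv.apply_symm_apply]
    have h2 : e (ψ a) = Ideal.Quotient.mk 𝔫 (algebraMap ℂ A (ψ a)) := rfl
    rw [← h1, h2]
  have hψker : ∀ a : A, ψ a = 0 → a ∈ 𝔫 := by
    intro a ha
    have := hψ a
    rwa [ha, map_zero, sub_zero] at this
  refine ⟨ψ.comp ι, v, hvne, ?_, ?_⟩
  · intro r
    have h1 := (hv' _).mp (hψ (ι r))
    rw [sub_smul, sub_eq_zero] at h1
    show φ r v = ψ (ι r) • v
    rw [← hιv, h1, algebraMap_smul]
  · intro r hr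
    rw [RingHom.mem_ker] at hr
    have h1 : ι r ∈ 𝔫 := hψker _ hr
    by_contra hrI
    have h2 : ι r ∈ S := ⟨r, hrI, rfl⟩
    exact (Set.disjoint_left.mp h𝔫S) h1 h2

end Eigen

section LyingOver

variable {R : Type*} [CommRing R]

theorem exists_maximal_over (hint : ∀ r : R, IsIntegral ℤ r)
    (χ : R →+* ℂ) (I : Ideal R) [hI : I.IsPrime] (hker : RingHom.ker χ ≤ I) :
    ∃ (χ' : R →+* integralClosure ℤ ℂ) (𝔪 : Ideal (integralClosure ℤ ℂ)),
      (∀ r, ((χ' r : integralClosure ℤ ℂ) : ℂ) = χ r) ∧ 𝔪.IsMaximal ∧ ∀ r ∈ I, χ' r ∈ 𝔪 := by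
  classical
  have hmem : ∀ r : R, χ r ∈ (integralClosure ℤ ℂ).toSubring := by
    intro r
    have : IsIntegral ℤ (χ.toIntAlgHom r) := (hint r).map χ.toIntAlgHom
    exact this
  let χ' : R →+* integralClosure ℤ ℂ := χ.codRestrict (integralClosure ℤ ℂ).toSubring hmem
  have hχ' : ∀ r, ((χ' r : integralClosure ℤ ℂ) : ℂ) = χ r := fun r => rfl
  letI : Algebra R (integralClosure ℤ ℂ) := χ'.toAlgebra
  have halg : algebraMap R (integralClosure ℤ ℂ) = χ' := rfl
  haveI : Algebra.IsIntegral R (integralClosure ℤ ℂ) := by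
    refine ⟨fun x => ?_⟩
    have hx : IsIntegral ℤ x := by
      have := x.2
      exact (isIntegral_algHom_iff (integralClosure ℤ ℂ).val Subtype.val_injective).mp this
    exact hx.tower_top
  have hcomap : Ideal.comap (algebraMap R (integralClosure ℤ ℂ)) ⊥ ≤ I := by
    intro r hr
    apply hker
    rw [Ideal.mem_comap, Ideal.mem_bot, halg] at hr
    rw [RingHom.mem_ker, ← hχ', hr]
    rfl
  obtain ⟨Q, -, hQprime, hQ⟩ := Ideal.exists_ideal_over_prime_of_isIntegral I
    (⊥ : Ideal (integralClosure ℤ ℂ)) hcomap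
  obtain ⟨𝔪, h𝔪max, hQ𝔪⟩ := Ideal.exists_le_maximal Q hQprime.ne_top
  refine ⟨χ', 𝔪, hχ', h𝔪max, ?_⟩
  intro r hr
  apply hQ𝔪
  rw [← hQ] at hr
  exact hr

end LyingOver

end Fermat.Agent.S49
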