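import Mathlib

set_option autoImplicit false

namespace Fermat.Agent.S49.H44

open Module Module.End

/-- A nonzero simultaneous generalized eigenspace of a commuting family contains a simultaneous
eigenvector. -/
theorem exists_simultaneous_eigenvector_aux {K V ι : Type*} [Field K] [AddCommGroup V]
    [Module K V] [FiniteDimensional K V]
    (f : ι → Module.End K V) (hcomm : ∀ i j, Commute (f i) (f j)) (χ : ι → K) :
    ∀ (n : ℕ) (U : Submodule K V), finrank K U = n → U ≠ ⊥ →
      (∀ i, ∀ x ∈ U, f i x ∈ U) → U ≤ ⨅ i, (f i).maxGenEigenspace (χ i) →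
      ∃ v ∈ U, v ≠ 0 ∧ ∀ i, f i v = χ i • v := by
  intro n
  induction n using Nat.strong_induction_on with
  | _ n ih =>
    intro U hn hU hinv hle
    by_cases hall : ∀ i, U ≤ (f i).eigenspace (χ i)
    · obtain ⟨v, hvU, hv0⟩ := Submodule.exists_mem_ne_zero_of_ne_bot hU
      exact ⟨v, hvU, hv0, fun i => mem_eigenspace_iff.mp (hall i hvU)⟩
    · simp only [not_forall] at hall
      obtain ⟨i, hi⟩ := hall
      set U' : Submodule K V := U ⊓ (f i).eigenspace (χ i) with hU'
      have hlt : U' < U := by
        refine lt_of_le_of_ne inf_le_left ?_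
        intro h
        apply hi
        rw [← h]
        exact inf_le_right
      have hfin : finrank K U' < n := hn ▸ Submodule.finrank_lt_finrank_of_lt hlt
      have hU'ne : U' ≠ ⊥ := by
        obtain ⟨u, huU, hu0⟩ := Submodule.exists_mem_ne_zero_of_ne_bot hU
        have hu : u ∈ (f i).maxGenEigenspace (χ i) := by
          have := hle huU
          simp only [Submodule.mem_iInf] at this
          exact this i
        rw [mem_maxGenEigenspace] at hu
        classical
        have hex : ∃ k : ℕ, ((f i - χ i • (1 : Module.End K V)) ^ k) u = 0 := hu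
        set k := Nat.find hex with hk
        have hk0 : k ≠ 0 := by
          intro h0
          have := Nat.find_spec hex
          rw [← hk, h0] at this
          simp at this
          exact hu0 this
        obtain ⟨m, hm⟩ := Nat.exists_eq_succ_of_ne_zero hk0
        have hmlt : m < k := by omega
        have hw0 : ((f i - χ i • (1 : Module.End K V)) ^ m) u ≠ 0 := Nat.find_min hex hmlt
        have hwU : ∀ j : ℕ, ((f i - χ i • (1 : Module.End K V)) ^ j) u ∈ U := by
          intro j
          induction j with
          | zero => simpa using huU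
          | succ j ihj =>
            rw [pow_succ', Module.End.mul_apply]
            simp only [LinearMap.sub_apply, LinearMap.smul_apply, Module.End.one_apply]
            exact U.sub_mem (hinv i _ ihj) (U.smul_mem _ ihj)
        have hw1 : (f i - χ i • (1 : Module.End K V))
            (((f i - χ i • (1 : Module.End K V)) ^ m) u) = 0 := by
          have := Nat.find_spec hex
          rw [← hk, hm, pow_succ', Module.End.mul_apply] at this
          exact this
        intro hbot
        apply hw0
        have hmem : ((f i - χ i • (1 : Module.End K V)) ^ m) u ∈ U' := by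
          refine ⟨hwU m, ?_⟩
          rw [SetLike.mem_coe, mem_eigenspace_iff]
          simp only [LinearMap.sub_apply, LinearMap.smul_apply, Module.End.one_apply] at hw1
          exact sub_eq_zero.mp hw1
        rw [hbot] at hmem
        exact (Submodule.mem_bot K).mp hmem
      have hinv' : ∀ j, ∀ x ∈ U', f j x ∈ U' := by
        intro j x hx
        refine ⟨hinv j x hx.1, ?_⟩
        have hx2 : f i x = χ i • x := mem_eigenspace_iff.mp hx.2
        rw [SetLike.mem_coe, mem_eigenspace_iff]
        have hc : f i (f j x) = f j (f i x) := by
          have := (hcomm i j).eq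
          exact congrArg (fun g => g x) this
        rw [hc, hx2, map_smul]
      obtain ⟨v, hvU', hv0, hv⟩ := ih _ hfin U' rfl hU'ne hinv' (le_trans inf_le_left hle)
      exact ⟨v, hvU'.1, hv0, hv⟩

theorem exists_simultaneous_eigenvector {K V ι : Type*} [Field K] [AddCommGroup V]
    [Module K V] [FiniteDimensional K V]
    (f : ι → Module.End K V) (hcomm : ∀ i j, Commute (f i) (f j)) (χ : ι → K)
    (h : (⨅ i, (f i).maxGenEigenspace (χ i)) ≠ ⊥) :
    ∃ v : V, v ≠ 0 ∧ ∀ i, f i v = χ i • v := by
  obtain ⟨v, -, hv0, hv⟩ := exists_simultaneous_eigenvector_aux f hcomm χ _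
    (⨅ i, (f i).maxGenEigenspace (χ i)) rfl h
    (fun i x hx => by
      simp only [Submodule.mem_iInf] at hx ⊢
      intro j
      exact mapsTo_maxGenEigenspace_of_comm (hcomm j i) (χ j) (hx j)) le_rfl
  exact ⟨v, hv0, hv⟩

end Fermat.Agent.S49.H44
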