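import Mathlib
import Fermat.Agent.S49.H44_SimEigen

set_option autoImplicit false

namespace Fermat.Agent.S49.H44

open Module Module.End

/-- Abstract Deligne–Serre lifting lemma, formulated without tensor products.
`VA` plays the role of the `A`-lattice and `VI` of `I • VA`. -/
theorem abstract_lifting {K V ι : Type*} [Field K] [IsAlgClosed K] [AddCommGroup V] [Module K V]
    [FiniteDimensional K V]
    (f : ι → Module.End K V) (hcomm : ∀ i j, Commute (f i) (f j))
    {A : Type*} [CommRing A] [Algebra A K] (I : Ideal A) (hI : I.IsPrime)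
    (VA VI : AddSubgroup V)
    (hAVA : ∀ a : A, ∀ v ∈ VA, (algebraMap A K a) • v ∈ VA)
    (hAVI : ∀ a : A, ∀ v ∈ VI, (algebraMap A K a) • v ∈ VI)
    (hfVA : ∀ i, ∀ v ∈ VA, f i v ∈ VA)
    (hfVI : ∀ i, ∀ v ∈ VI, f i v ∈ VI)
    (heig : ∀ i μ, (f i).HasEigenvalue μ → ∃ x : A, algebraMap A K x = μ)
    (a : ι → A) (v0 : V) (hv0 : v0 ∈ VA)
    (hv0eig : ∀ i, f i v0 - (algebraMap A K (a i)) • v0 ∈ VI)
    (hprim : ∀ c : A, (algebraMap A K c) • v0 ∈ VI → c ∈ I) :
    ∃ (χ : ι → A) (v : V), v ≠ 0 ∧ (∀ i, f i v = (algebraMap A K (χ i)) • v) ∧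
      ∀ i, χ i - a i ∈ I := by
  classical
  by_contra hcon
  -- the generating set of operators
  set S : Set (Module.End K V) :=
    {T | ∃ (i : ι) (l : A), a i - l ∉ I ∧ T = f i - (algebraMap A K l) • (1 : Module.End K V)} with hS
  set P : Submonoid (Module.End K V) := Submonoid.closure S with hP
  -- (α)
  have hα : ∀ T ∈ P, ∀ g : V, g ∈ VA → (∀ i, f i g - (algebraMap A K (a i)) • g ∈ VI) →
      (T g ∈ VA ∧ (∀ i, f i (T g) - (algebraMap A K (a i)) • T g ∈ VI) ∧
        ∃ c : A, c ∉ I ∧ T g - (algebraMap A K c) • g ∈ VI) := by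
    intro T hT
    induction hT using Submonoid.closure_induction with
    | mem T hTS =>
      obtain ⟨j, l, hl, rfl⟩ := hTS
      intro g hg hge
      have h1 : (f j - (algebraMap A K l) • (1 : Module.End K V)) g = f j g - (algebraMap A K l) • g := by
        simp
      rw [h1]
      refine ⟨VA.sub_mem (hfVA j g hg) (hAVA l g hg), ?_, a j - l, hl, ?_⟩
      · intro i
        have hc : f i (f j g) = f j (f i g) := congrArg (fun T => T g) (hcomm i j).eq
        have : f i (f j g - (algebraMap A K l) • g) - (algebraMap A K (a i)) • (f j g - (algebraMap A K l) • g)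
            = f j (f i g - (algebraMap A K (a i)) • g) - (algebraMap A K l) • (f i g - (algebraMap A K (a i)) • g) := by
          simp only [map_sub, map_smul, smul_sub, hc]
          rw [smul_comm (algebraMap A K (a i)) (algebraMap A K l) g]
          abel
        rw [this]
        exact VI.sub_mem (hfVI j _ (hge i)) (hAVI l _ (hge i))
      · have : f j g - (algebraMap A K l) • g - (algebraMap A K (a j - l)) • g = f j g - (algebraMap A K (a j)) • g := by
          rw [map_sub, sub_smul]
          abel
        rw [this]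
        exact hge j
    | one =>
      intro g hg hge
      refine ⟨by simpa using hg, by simpa using hge, 1, ?_, by simp⟩
      exact fun h => hI.ne_top ((Ideal.eq_top_iff_one _).mpr h)
    | mul T T' _ _ ihT ihT' =>
      intro g hg hge
      obtain ⟨h1, h2, c', hc', h3⟩ := ihT' g hg hge
      obtain ⟨h4, h5, c, hc, h6⟩ := ihT (T' g) h1 h2
      refine ⟨h4, h5, c * c', ?_, ?_⟩
      · intro h
        rcases hI.mem_or_mem h with h | h
        · exact hc h
        · exact hc' h
      · have : (T * T') g - (algebraMap A K (c * c')) • g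
            = (T (T' g) - (algebraMap A K c) • T' g) + (algebraMap A K c) • (T' g - (algebraMap A K c') • g) := by
          rw [map_mul, Module.End.mul_apply, smul_sub, mul_smul]
          abel
        rw [this]
        exact VI.add_mem h6 (hAVI c _ h3)
  have hα' : ∀ T ∈ P, T v0 ≠ 0 := by
    intro T hT h0
    obtain ⟨-, -, c, hc, h⟩ := hα T hT v0 hv0 hv0eig
    rw [h0, zero_sub] at h
    exact hc (hprim c (by simpa using VI.neg_mem h))
  -- commutativity
  have hcommP : ∀ T ∈ P, ∀ j, Commute T (f j) := by
    intro T hT j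
    induction hT using Submonoid.closure_induction with
    | mem T hTS =>
      obtain ⟨i, l, -, rfl⟩ := hTS
      exact ((hcomm i j).sub_left
        ((Commute.one_left (f j)).smul_left (algebraMap A K l)))
    | one => exact Commute.one_left _
    | mul T T' _ _ ihT ihT' => exact ihT.mul_left ihT'
  have hcommPP : ∀ T ∈ P, ∀ T' ∈ P, Commute T T' := by
    intro T hT T' hT'
    induction hT' using Submonoid.closure_induction with
    | mem T' hTS =>
      obtain ⟨i, l, -, rfl⟩ := hTS
      exact ((hcommP T hT i).sub_right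
        ((Commute.one_right T).smul_right (algebraMap A K l)))
    | one => exact Commute.one_right _
    | mul T' T'' _ _ ihT ihT' => exact ihT.mul_right ihT'
  -- the subspace killed by some element of P
  let 𝒦 : Submodule K V :=
    { carrier := {v | ∃ T ∈ P, T v = 0}
      zero_mem' := ⟨1, P.one_mem, by simp⟩
      add_mem' := by
        rintro v w ⟨T, hT, hTv⟩ ⟨T', hT', hT'w⟩
        refine ⟨T * T', P.mul_mem hT hT', ?_⟩
        have hc : (T * T') v = (T' * T) v := congrArg (fun X => X v) (hcommPP T hT T' hT').eq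
        rw [map_add, hc, Module.End.mul_apply, Module.End.mul_apply, hTv, hT'w]
        simp
      smul_mem' := by
        rintro c v ⟨T, hT, hTv⟩
        exact ⟨T, hT, by rw [map_smul, hTv, smul_zero]⟩ }
  have hW : ∀ χ : ι → K, (⨅ i, (f i).maxGenEigenspace (χ i)) ≤ 𝒦 := by
    intro χ
    by_cases hbot : (⨅ i, (f i).maxGenEigenspace (χ i)) = ⊥
    · rw [hbot]; exact bot_le
    · have hχA : ∀ i, ∃ x : A, algebraMap A K x = χ i := by
        intro i
        apply heig i
        have hne : (f i).maxGenEigenspace (χ i) ≠ ⊥ := by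
          intro h
          apply hbot
          exact le_bot_iff.mp (h ▸ iInf_le _ i)
        have : (f i).HasUnifEigenvalue (χ i) ⊤ := hne
        exact (hasUnifEigenvalue_iff_hasUnifEigenvalue_one (by simp)).mp this
      choose x hx using hχA
      obtain ⟨v, hv0, hv⟩ := exists_simultaneous_eigenvector f hcomm χ hbot
      have : ¬ ∀ i, x i - a i ∈ I := by
        intro h
        exact hcon ⟨x, v, hv0, fun i => by rw [hx i]; exact hv i, h⟩
      simp only [not_forall] at this
      obtain ⟨j, hj⟩ := this
      have hj' : a j - x j ∉ I := by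
        intro h
        apply hj
        have := I.neg_mem h
        simpa using this
      have hTS : f j - χ j • (1 : Module.End K V) ∈ S := ⟨j, x j, hj', by rw [hx j]⟩
      have hTP : (f j - χ j • (1 : Module.End K V)) ^ (finrank K V) ∈ P :=
        P.pow_mem (Submonoid.subset_closure hTS) _
      intro w hw
      refine ⟨_, hTP, ?_⟩
      have hw' : w ∈ (f j).maxGenEigenspace (χ j) := by
        simp only [Submodule.mem_iInf] at hw
        exact hw j
      rw [maxGenEigenspace_eq_genEigenspace_finrank] at hw'
      exact mem_genEigenspace_nat.mp hw'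
  have htop : (⨆ χ : ι → K, ⨅ i, (f i).maxGenEigenspace (χ i)) = ⊤ :=
    iSup_iInf_maxGenEigenspace_eq_top_of_iSup_maxGenEigenspace_eq_top_of_commute f
      (fun i j _ => hcomm i j) (fun i => iSup_maxGenEigenspace_eq_top (f i))
  have h𝒦 : 𝒦 = ⊤ := by
    rw [eq_top_iff, ← htop]
    exact iSup_le hW
  have : v0 ∈ 𝒦 := by rw [h𝒦]; trivial
  obtain ⟨T, hT, hTv⟩ := this
  exact hα' T hT hTv

end Fermat.Agent.S49.H44
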