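import Mathlib
import Fermat.Prelude.Def_CuspForm_IntegralLattice

/-!
# Mod 3 congruences for the bridge product and for `chiNegThree`
-/

set_option autoImplicit false

namespace Fermat.Agent.S49

open EisensteinWeightOne

theorem chiNegThree_congr (ℓ : ℕ) : (3 : ℤ) ∣ EisensteinWeightOne.chiNegThree ℓ - (ℓ : ℤ) := by
  unfold EisensteinWeightOne.chiNegThree
  have h3 : ℓ % 3 = 0 ∨ ℓ % 3 = 1 ∨ ℓ % 3 = 2 := by omega
  rcases h3 with h | h | h
  · rw [if_neg (by omega), if_neg (by omega)]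
    omega
  · rw [if_pos h]
    omega
  · rw [if_neg (by omega), if_pos h]
    omega

theorem three_dvd_coeff_e1Chi3 {j : ℕ} (hj : j ≠ 0) :
    (3 : ℤ) ∣ PowerSeries.coeff j (e1Chi3In ℤ) := by
  unfold e1Chi3In e1Chi3
  rw [PowerSeries.coeff_map, PowerSeries.coeff_mk, if_neg hj]
  simp only [Int.coe_castRingHom, Int.cast_id]
  exact Dvd.dvd.mul_right (by norm_num) _

theorem coeff_zero_e1Chi3 : PowerSeries.coeff 0 (e1Chi3In ℤ) = 1 := by
  unfold e1Chi3In e1Chi3
  rw [PowerSeries.coeff_map, PowerSeries.coeff_mk, if_pos rfl]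
  simp

theorem bridgeProduct_coeff_congr (a : ℕ → ℤ) (n : ℕ) :
    (3 : ℤ) ∣ (bridgeProduct a).coeff n - a n := by
  unfold bridgeProduct
  rw [PowerSeries.coeff_mul]
  have hmem : (n, 0) ∈ Finset.HasAntidiagonal.antidiagonal n := by simp
  rw [← Finset.add_sum_erase _ _ hmem]
  simp only [PowerSeries.coeff_mk, coeff_zero_e1Chi3, mul_one, add_sub_cancel_left]
  apply Finset.dvd_sum
  intro p hp
  have hp2 : p.2 ≠ 0 := by
    intro h0
    rw [Finset.mem_erase, Finset.HasAntidiagonal.mem_antidiagonal] at hp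
    apply hp.1
    ext
    · simp only; omega
    · simp only; omega
  exact Dvd.dvd.mul_left (three_dvd_coeff_e1Chi3 hp2) _

end Fermat.Agent.S49
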