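import Mathlib
import Fermat.Prelude.Def_CuspForm_IntegralLattice
import Fermat.Prelude.Def_CuspForm_IntegralStructure
import Fermat.Prelude.Def_CuspForm_HeckeAlgebra
import Fermat.Prelude.Thm_CuspForm_intLattice_fg
import Fermat.Prelude.Thm_CuspForm_mem_intLattice_of_mem_heckeAlgebra

/-!
# Finite-dimensionality of `S₂(Γ₀(N))` and integrality of Hecke operators
(from `HasIntegralBasis` and the finitely generated integral lattice of the Prelude)
-/

set_option autoImplicit false

namespace Fermat.Agent.S49

open CuspForm CongruenceSubgroup ModularFormClass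

theorem qIntegralSet_subset_intLattice (N : ℕ) :
    CuspForm.qIntegralSet N ⊆ (CuspForm.intLattice N 2 : Set (CuspForm (Gamma0 N) 2)) := by
  intro f hf
  apply Submodule.subset_span
  intro n
  obtain ⟨m, hm⟩ := Subring.mem_bot.mp (hf n)
  exact ⟨m, hm.symm⟩

theorem span_intLattice_eq_top {N : ℕ} (h : CuspForm.HasIntegralBasis N) :
    Submodule.span ℂ (CuspForm.intLattice N 2 : Set (CuspForm (Gamma0 N) 2)) = ⊤ := by
  rw [eq_top_iff]
  unfold CuspForm.HasIntegralBasis at h
  rw [← h]
  exact Submodule.span_mono (qIntegralSet_subset_intLattice N)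

theorem finiteDimensional_of_hasIntegralBasis {N : ℕ} [NeZero N]
    (h : CuspForm.HasIntegralBasis N) :
    FiniteDimensional ℂ (CuspForm (CongruenceSubgroup.Gamma0 N) 2) := by
  obtain ⟨s, hs⟩ := CuspForm.intLattice_fg N 2
  refine ⟨⟨s, ?_⟩⟩
  rw [← span_intLattice_eq_top h, ← hs, Submodule.span_span_of_tower]

/-- An endomorphism preserving the integral lattice is integral over `ℤ`. -/
theorem isIntegral_of_mapsTo_intLattice {N : ℕ} [NeZero N] (h : CuspForm.HasIntegralBasis N)
    (t : Module.End ℂ (CuspForm (Gamma0 N) 2))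
    (ht : ∀ f ∈ CuspForm.intLattice N 2, t f ∈ CuspForm.intLattice N 2) :
    IsIntegral ℤ t := by
  have : Module.Finite ℤ (CuspForm.intLattice N 2) :=
    Module.Finite.iff_fg.mpr (CuspForm.intLattice_fg N 2)
  set tL : Module.End ℤ (CuspForm.intLattice N 2) :=
    (t.restrictScalars ℤ).restrict ht with htL
  obtain ⟨p, hp, hp0⟩ := LinearMap.exists_monic_and_aeval_eq_zero ℤ tL
  -- compatibility of polynomial evaluation with restriction
  have key : ∀ (q : Polynomial ℤ) (x : CuspForm.intLattice N 2),
      ((Polynomial.aeval tL q) x : CuspForm (Gamma0 N) 2) = (Polynomial.aeval t q) (x : _) := by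
    intro q
    induction q using Polynomial.induction_on with
    | C a =>
      intro x
      simp only [Polynomial.aeval_C, Module.algebraMap_end_apply, Submodule.coe_smul]
    | add q r hq hr =>
      intro x
      simp only [map_add, LinearMap.add_apply, Submodule.coe_add, hq, hr]
    | monomial n a ih =>
      intro x
      have e1 : Polynomial.aeval tL (Polynomial.C a * Polynomial.X ^ (n + 1))
          = Polynomial.aeval tL (Polynomial.C a * Polynomial.X ^ n) * tL := by
        rw [pow_succ, ← mul_assoc, map_mul, Polynomial.aeval_X]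
      have e2 : Polynomial.aeval t (Polynomial.C a * Polynomial.X ^ (n + 1))
          = Polynomial.aeval t (Polynomial.C a * Polynomial.X ^ n) * t := by
        rw [pow_succ, ← mul_assoc, map_mul, Polynomial.aeval_X]
      rw [e1, e2, Module.End.mul_apply, Module.End.mul_apply, ih]
      rfl
  have hzero : Polynomial.aeval t p = 0 := by
    apply LinearMap.ext_on (span_intLattice_eq_top h)
    intro x hx
    have := key p ⟨x, hx⟩
    rw [hp0] at this
    simpa using this.symm
  exact ⟨p, hp, by rwa [← Polynomial.aeval_def]⟩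

theorem heckeAlgebra_isIntegral {N : ℕ} [NeZero N] (h : CuspForm.HasIntegralBasis N)
    (T : CuspForm.heckeAlgebra N 2 ∅) : IsIntegral ℤ T := by
  have h1 : IsIntegral ℤ (T : Module.End ℂ (CuspForm (Gamma0 N) 2)) :=
    isIntegral_of_mapsTo_intLattice h T
      (fun f hf => CuspForm.mem_intLattice_of_mem_heckeAlgebra (by norm_num) T.2 hf)
  exact (isIntegral_algHom_iff (CuspForm.heckeAlgebra N 2 ∅).val Subtype.val_injective).mp h1

end Fermat.Agent.S49
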