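import Mathlib
import Fermat.Agent.S49.H44_AbstractLift
import Fermat.Agent.S49.H44_Congr
import Fermat.Agent.S49.H44_Integral
import Fermat.Agent.S49.QCoeff
import Fermat.Agent.S49.Formal

/-!
# The lifting lemma for `S₂(Γ₀(N))`: modular glue (helper44 route)
-/

set_option autoImplicit false

namespace Fermat.Agent.S49.H44

open CuspForm CongruenceSubgroup ModularFormClass EisensteinWeightOne

/-- The Hecke operator at a prime `ℓ`: `U_ℓ` if `ℓ ∣ N`, `T_ℓ` otherwise. -/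
noncomputable def heckeOp (N : ℕ) [NeZero N] (ℓ : Nat.Primes) :
    Module.End ℂ (CuspForm (Gamma0 N) 2) :=
  if h : (ℓ : ℕ) ∣ N then CuspForm.heckeULin 2 h else CuspForm.heckeTLin 2 ℓ.2 h

variable {N : ℕ} [NeZero N]

theorem heckeOp_mem_heckeGenerators (ℓ : Nat.Primes) :
    heckeOp N ℓ ∈ CuspForm.heckeGenerators N 2 ∅ := by
  unfold heckeOp
  split_ifs with h
  · exact CuspForm.heckeULin_mem_heckeGenerators ℓ.2 h (Set.notMem_empty _)
  · exact CuspForm.heckeTLin_mem_heckeGenerators ℓ.2 h (Set.notMem_empty _)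

theorem heckeOp_commute (ℓ ℓ' : Nat.Primes) : Commute (heckeOp N ℓ) (heckeOp N ℓ') :=
  CuspForm.commute_of_mem_heckeGenerators (heckeOp_mem_heckeGenerators ℓ)
    (heckeOp_mem_heckeGenerators ℓ')

theorem qCoeff_heckeOp (ℓ : Nat.Primes) (g : CuspForm (Gamma0 N) 2) (n : ℕ) :
    qCoeff ⇑(heckeOp N ℓ g) n = qCoeff ⇑g (n * ℓ) +
      (if (ℓ : ℕ) ∣ N then 0 else if (ℓ : ℕ) ∣ n then (ℓ : ℂ) * qCoeff ⇑g (n / ℓ) else 0) := by
  unfold heckeOp
  split_ifs with h h'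
  · rw [qCoeff_heckeULin ℓ.2.ne_zero h, add_zero]
  · rw [qCoeff_heckeTLin ℓ.2 h, if_pos h']
    norm_num
  · rw [qCoeff_heckeTLin ℓ.2 h, if_neg h']

theorem heckeOp_isIntegral (h : CuspForm.HasIntegralBasis N) (ℓ : Nat.Primes) :
    IsIntegral ℤ (heckeOp N ℓ) :=
  isIntegral_of_mapsTo_intLattice h _ (fun _ hf =>
    CuspForm.mem_intLattice_of_mem_heckeAlgebra (S := ∅) (by norm_num)
      (Algebra.subset_adjoin (heckeOp_mem_heckeGenerators ℓ)) hf)

theorem eigenvalue_isIntegral (h : CuspForm.HasIntegralBasis N) (ℓ : Nat.Primes) (μ : ℂ)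
    (hμ : (heckeOp N ℓ).HasEigenvalue μ) : IsIntegral ℤ μ := by
  obtain ⟨p, hp, hp0⟩ := heckeOp_isIntegral h ℓ
  obtain ⟨v, hv⟩ := hμ.exists_hasEigenvector
  refine ⟨p, hp, ?_⟩
  have h1 := Module.End.aeval_apply_of_hasEigenvector (p := p.map (algebraMap ℤ ℂ)) hv
  have h2 : Polynomial.aeval (heckeOp N ℓ) (p.map (algebraMap ℤ ℂ)) = 0 := by
    rw [Polynomial.aeval_map_algebraMap]
    rwa [← Polynomial.aeval_def] at hp0
  rw [h2, LinearMap.zero_apply] at h1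
  have h3 : Polynomial.eval μ (p.map (algebraMap ℤ ℂ)) = 0 := by
    rcases smul_eq_zero.mp h1.symm with h | h
    · exact h
    · exact absurd h hv.2
  rwa [Polynomial.eval_map] at h3

/-- The lattice of forms with algebraic integer `q`-coefficients. -/
noncomputable def VA (N : ℕ) : AddSubgroup (CuspForm (Gamma0 N) 2) where
  carrier := {g | ∀ n, ∃ x : integralClosure ℤ ℂ, (x : ℂ) = qCoeff ⇑g n}
  zero_mem' := fun n => ⟨0, by rw [qCoeff_zero_form]; rfl⟩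
  add_mem' := by
    intro f g hf hg n
    obtain ⟨x, hx⟩ := hf n
    obtain ⟨y, hy⟩ := hg n
    exact ⟨x + y, by rw [qCoeff_add, ← hx, ← hy]; rfl⟩
  neg_mem' := by
    intro f hf n
    obtain ⟨x, hx⟩ := hf n
    exact ⟨-x, by rw [qCoeff_neg, ← hx]; rfl⟩

/-- The sublattice of forms with `q`-coefficients in the ideal `I`. -/
noncomputable def VI (N : ℕ) (I : Ideal (integralClosure ℤ ℂ)) :
    AddSubgroup (CuspForm (Gamma0 N) 2) where
  carrier := {g | ∀ n, ∃ x : integralClosure ℤ ℂ, x ∈ I ∧ (x : ℂ) = qCoeff ⇑g n}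
  zero_mem' := fun n => ⟨0, I.zero_mem, by rw [qCoeff_zero_form]; rfl⟩
  add_mem' := by
    intro f g hf hg n
    obtain ⟨x, hxI, hx⟩ := hf n
    obtain ⟨y, hyI, hy⟩ := hg n
    exact ⟨x + y, I.add_mem hxI hyI, by rw [qCoeff_add, ← hx, ← hy]; rfl⟩
  neg_mem' := by
    intro f hf n
    obtain ⟨x, hxI, hx⟩ := hf n
    exact ⟨-x, I.neg_mem hxI, by rw [qCoeff_neg, ← hx]; rfl⟩

theorem mem_VA {g : CuspForm (Gamma0 N) 2} :
    g ∈ VA N ↔ ∀ n, ∃ x : integralClosure ℤ ℂ, (x : ℂ) = qCoeff ⇑g n := Iff.rfl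

theorem mem_VI {I : Ideal (integralClosure ℤ ℂ)} {g : CuspForm (Gamma0 N) 2} :
    g ∈ VI N I ↔ ∀ n, ∃ x : integralClosure ℤ ℂ, x ∈ I ∧ (x : ℂ) = qCoeff ⇑g n := Iff.rfl

theorem exists_maximal_three :
    ∃ 𝔪' : Ideal (integralClosure ℤ ℂ), 𝔪'.IsMaximal ∧ ((3 : ℕ) : integralClosure ℤ ℂ) ∈ 𝔪' := by
  have hprime : Prime (3 : ℤ) := Int.prime_three
  haveI hmax : (Ideal.span {(3 : ℤ)}).IsMaximal :=
    PrincipalIdealRing.isMaximal_of_irreducible hprime.irreducible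
  have hker : RingHom.ker (algebraMap ℤ (integralClosure ℤ ℂ)) ≤ Ideal.span {(3 : ℤ)} := by
    intro x hx
    rw [RingHom.mem_ker] at hx
    have : (x : ℂ) = 0 := by
      have := congrArg (fun y : integralClosure ℤ ℂ => (y : ℂ)) hx
      simpa using this
    have hx0 : x = 0 := by exact_mod_cast this
    rw [hx0]
    exact Ideal.zero_mem _
  obtain ⟨Q, hQ, hQc⟩ := Ideal.exists_ideal_over_maximal_of_isIntegral
    (S := integralClosure ℤ ℂ) (Ideal.span {(3 : ℤ)}) hker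
  refine ⟨Q, hQ, ?_⟩
  have h3 : (3 : ℤ) ∈ Q.comap (algebraMap ℤ (integralClosure ℤ ℂ)) := by
    rw [hQc]
    exact Ideal.mem_span_singleton_self _
  rw [Ideal.mem_comap] at h3
  simpa using h3

end Fermat.Agent.S49.H44
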