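import Mathlib
import Fermat.Agent.S49.H44_ModLift

/-!
# The lifting lemma for `S₂(Γ₀(N))`: existence of the lifted eigenvector (helper44 route)
-/

set_option autoImplicit false

namespace Fermat.Agent.S49.H44

open CuspForm CongruenceSubgroup ModularFormClass EisensteinWeightOne

variable {N : ℕ} [NeZero N]

theorem three_mem_of_dvd {I : Ideal (integralClosure ℤ ℂ)}
    (h3 : ((3 : ℕ) : integralClosure ℤ ℂ) ∈ I) {z : ℤ} (hz : (3 : ℤ) ∣ z) :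
    ((z : ℤ) : integralClosure ℤ ℂ) ∈ I := by
  obtain ⟨w, rfl⟩ := hz
  have : (((3 * w : ℤ)) : integralClosure ℤ ℂ) = ((3 : ℕ) : integralClosure ℤ ℂ) * (w : integralClosure ℤ ℂ) := by
    push_cast
    ring
  rw [this]
  exact I.mul_mem_right _ h3

theorem coe_intCast_integralClosure (z : ℤ) :
    (((z : ℤ) : integralClosure ℤ ℂ) : ℂ) = (z : ℂ) := by
  simp

theorem hecke_congr_int {a : ℕ → ℤ}
    (heig : FormalHecke.IsEigensystem
      (fun ℓ => if ℓ ∣ N then 0 else ((chiNegThree ℓ : ℤ) : ℤ)) a)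
    {af : ℕ → ℤ} (h3 : ∀ n, (3 : ℤ) ∣ af n - a n) (ℓ : Nat.Primes) (n : ℕ) :
    (3 : ℤ) ∣ af (n * ℓ) +
      (if (ℓ : ℕ) ∣ N then 0 else if (ℓ : ℕ) ∣ n then (ℓ : ℤ) * af (n / ℓ) else 0)
      - a ℓ * af n := by
  have key := heig.2 ℓ ℓ.2 n
  simp only at key
  have e1 : (3 : ℤ) ∣ af (n * ℓ) - a (ℓ * n) := by
    rw [mul_comm]; exact h3 _
  have e3 : (3 : ℤ) ∣ a ℓ * (af n - a n) := Dvd.dvd.mul_left (h3 n) _
  have e2 : (3 : ℤ) ∣
      (if (ℓ : ℕ) ∣ N then 0 else if (ℓ : ℕ) ∣ n then (ℓ : ℤ) * af (n / ℓ) else 0)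
      - (if (ℓ : ℕ) ∣ N then 0 else ((chiNegThree ℓ : ℤ) : ℤ)) *
          (if (ℓ : ℕ) ∣ n then a (n / ℓ) else 0) := by
    by_cases hN : (ℓ : ℕ) ∣ N
    · simp [hN]
    · by_cases hn : (ℓ : ℕ) ∣ n
      · simp only [hN, hn, if_false, if_true]
        have h4 : (ℓ : ℤ) * af (n / ℓ) - chiNegThree ℓ * a (n / ℓ)
            = (ℓ : ℤ) * (af (n / ℓ) - a (n / ℓ)) - (chiNegThree ℓ - (ℓ : ℤ)) * a (n / ℓ) := by
          ring
        rw [h4]
        exact dvd_sub (Dvd.dvd.mul_left (h3 _) _)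
          (Dvd.dvd.mul_right (chiNegThree_congr ℓ) _)
      · simp [hN, hn]
  have : af (n * ℓ) +
      (if (ℓ : ℕ) ∣ N then 0 else if (ℓ : ℕ) ∣ n then (ℓ : ℤ) * af (n / ℓ) else 0)
      - a ℓ * af n
      = (af (n * ℓ) - a (ℓ * n)) +
        ((if (ℓ : ℕ) ∣ N then 0 else if (ℓ : ℕ) ∣ n then (ℓ : ℤ) * af (n / ℓ) else 0)
          - (if (ℓ : ℕ) ∣ N then 0 else ((chiNegThree ℓ : ℤ) : ℤ)) *
            (if (ℓ : ℕ) ∣ n then a (n / ℓ) else 0))
        - a ℓ * (af n - a n)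
        + (a (ℓ * n) + (if (ℓ : ℕ) ∣ N then 0 else ((chiNegThree ℓ : ℤ) : ℤ)) *
            (if (ℓ : ℕ) ∣ n then a (n / ℓ) else 0) - a ℓ * a n) := by
    ring
  rw [this, key, sub_self, add_zero]
  exact dvd_sub (dvd_add e1 e2) e3

theorem exists_eigenform_lift (h : CuspForm.HasIntegralBasis N) {a : ℕ → ℤ}
    (heig : FormalHecke.IsEigensystem
      (fun ℓ => if ℓ ∣ N then 0 else ((chiNegThree ℓ : ℤ) : ℤ)) a)
    (hreal : CuspForm.IsLatticeRealized N a) :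
    ∃ (𝔪' : Ideal (integralClosure ℤ ℂ)) (χ : Nat.Primes → integralClosure ℤ ℂ)
      (v : CuspForm (Gamma0 N) 2),
      𝔪'.IsMaximal ∧ ((3 : ℕ) : integralClosure ℤ ℂ) ∈ 𝔪' ∧ v ≠ 0 ∧
      (∀ ℓ, heckeOp N ℓ v = ((χ ℓ : integralClosure ℤ ℂ) : ℂ) • v) ∧
      ∀ ℓ : Nat.Primes, χ ℓ - ((a ℓ : ℤ) : integralClosure ℤ ℂ) ∈ 𝔪' := by
  obtain ⟨𝔪', hmax, h3mem⟩ := exists_maximal_three
  obtain ⟨f0, -, af, haf, haf3⟩ := hreal
  have h3 : ∀ n, (3 : ℤ) ∣ af n - a n := by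
    intro n
    have := dvd_add (haf3 n) (Fermat.Agent.S49.bridgeProduct_coeff_congr a n)
    simpa using this
  haveI : FiniteDimensional ℂ (CuspForm (Gamma0 N) 2) := finiteDimensional_of_hasIntegralBasis h
  have hcoe : ∀ x : integralClosure ℤ ℂ, algebraMap (integralClosure ℤ ℂ) ℂ x = (x : ℂ) :=
    fun _ => rfl
  obtain ⟨χ, v, hv0, hv, hχ⟩ := abstract_lifting (K := ℂ) (heckeOp N) heckeOp_commute
    (A := integralClosure ℤ ℂ) 𝔪' hmax.isPrime (VA N) (VI N 𝔪')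
    (by
      intro c g hg n
      obtain ⟨x, hx⟩ := hg n
      exact ⟨c * x, by rw [qCoeff_smul, ← hx, hcoe]; rfl⟩)
    (by
      intro c g hg n
      obtain ⟨x, hxI, hx⟩ := hg n
      exact ⟨c * x, 𝔪'.mul_mem_left _ hxI, by rw [qCoeff_smul, ← hx, hcoe]; rfl⟩)
    (by
      intro ℓ g hg n
      rw [mem_VA] at hg
      obtain ⟨x, hx⟩ := hg (n * ℓ)
      obtain ⟨y, hy⟩ := hg (n / ℓ)
      refine ⟨x + (if (ℓ : ℕ) ∣ N then 0 else if (ℓ : ℕ) ∣ n then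
        ((ℓ : ℕ) : integralClosure ℤ ℂ) * y else 0), ?_⟩
      rw [qCoeff_heckeOp, ← hx, ← hy]
      split_ifs <;> simp)
    (by
      intro ℓ g hg n
      rw [mem_VI] at hg
      obtain ⟨x, hxI, hx⟩ := hg (n * ℓ)
      obtain ⟨y, hyI, hy⟩ := hg (n / ℓ)
      refine ⟨x + (if (ℓ : ℕ) ∣ N then 0 else if (ℓ : ℕ) ∣ n then
        ((ℓ : ℕ) : integralClosure ℤ ℂ) * y else 0), ?_, ?_⟩
      · apply 𝔪'.add_mem hxI
        split_ifs
        · exact 𝔪'.zero_mem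
        · exact 𝔪'.mul_mem_left _ hyI
        · exact 𝔪'.zero_mem
      · rw [qCoeff_heckeOp, ← hx, ← hy]
        split_ifs <;> simp)
    (by
      intro ℓ μ hμ
      exact ⟨⟨μ, eigenvalue_isIntegral h ℓ μ hμ⟩, rfl⟩)
    (fun ℓ => ((a ℓ : ℤ) : integralClosure ℤ ℂ)) f0
    (by
      intro n
      exact ⟨((af n : ℤ) : integralClosure ℤ ℂ), by rw [← haf n]; simp⟩)
    (by
      intro ℓ n
      refine ⟨((af (n * ℓ) +
        (if (ℓ : ℕ) ∣ N then 0 else if (ℓ : ℕ) ∣ n then (ℓ : ℤ) * af (n / ℓ) else 0)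
        - a ℓ * af n : ℤ) : integralClosure ℤ ℂ),
        three_mem_of_dvd h3mem (hecke_congr_int heig h3 ℓ n), ?_⟩
      rw [qCoeff_sub, qCoeff_smul, qCoeff_heckeOp, ← haf, ← haf, ← haf, hcoe]
      rw [coe_intCast_integralClosure, coe_intCast_integralClosure]
      split_ifs <;> push_cast <;> ring)
    (by
      intro c hc
      obtain ⟨x, hxI, hx⟩ := hc 1
      rw [qCoeff_smul, ← haf, hcoe] at hx
      obtain ⟨w, hw⟩ := h3 1
      have ha1 : a 1 = 1 := heig.1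
      have haf1 : af 1 = 1 + 3 * w := by
        rw [ha1] at hw
        linarith
      have hxc : x = c + ((3 : ℕ) : integralClosure ℤ ℂ) * ((w : ℤ) : integralClosure ℤ ℂ) * c := by
        apply Subtype.ext
        have h3c : ((((3 : ℕ) : integralClosure ℤ ℂ)) : ℂ) = 3 := by norm_cast
        have hwc : ((((w : ℤ) : integralClosure ℤ ℂ)) : ℂ) = (w : ℂ) := by simp
        rw [Subalgebra.coe_add, Subalgebra.coe_mul, Subalgebra.coe_mul, h3c, hwc, hx, haf1]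
        push_cast
        ring
      have : c = x - ((3 : ℕ) : integralClosure ℤ ℂ) * ((w : ℤ) : integralClosure ℤ ℂ) * c := by
        rw [hxc]; ring
      rw [this]
      exact 𝔪'.sub_mem hxI (𝔪'.mul_mem_right _ (𝔪'.mul_mem_right _ h3mem)))
  exact ⟨𝔪', χ, v, hmax, h3mem, hv0, hv, hχ⟩

end Fermat.Agent.S49.H44
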