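import Mathlib
import Fermat.Agent.S49.H44_ModLift2

/-!
# Normalising a simultaneous Hecke eigenvector (helper44 route)
-/

set_option autoImplicit false

namespace Fermat.Agent.S49.H44

open CuspForm CongruenceSubgroup ModularFormClass EisensteinWeightOne

variable {N : ℕ} [NeZero N]

theorem qCoeff_rel_of_eigen {χ : Nat.Primes → ℂ} {v : CuspForm (Gamma0 N) 2}
    (hv : ∀ ℓ, heckeOp N ℓ v = χ ℓ • v) (ℓ : Nat.Primes) (n : ℕ) :
    qCoeff ⇑v (n * ℓ) +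
      (if (ℓ : ℕ) ∣ N then 0 else if (ℓ : ℕ) ∣ n then (ℓ : ℂ) * qCoeff ⇑v (n / ℓ) else 0)
      = χ ℓ * qCoeff ⇑v n := by
  rw [← qCoeff_heckeOp, hv ℓ, qCoeff_smul]

theorem qCoeff_one_ne_zero_of_eigen {χ : Nat.Primes → ℂ} {v : CuspForm (Gamma0 N) 2}
    (hv0 : v ≠ 0) (hv : ∀ ℓ, heckeOp N ℓ v = χ ℓ • v) : qCoeff ⇑v 1 ≠ 0 := by
  intro h1
  apply hv0
  apply cuspForm_eq_zero_of_qCoeff
  intro n
  induction n using Nat.strong_induction_on with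
  | _ n ih =>
    rcases Nat.eq_zero_or_pos n with h0 | hpos
    · rw [h0]; exact qCoeff_at_zero v
    rcases Nat.eq_or_lt_of_le (Nat.one_le_of_lt hpos) with hn1 | hn1
    · rw [← hn1]; exact h1
    obtain ⟨ℓ, hℓ, hℓn⟩ := Nat.exists_prime_and_dvd (show n ≠ 1 by omega)
    obtain ⟨m, rfl⟩ := hℓn
    have hmpos : 0 < m := by
      rcases Nat.eq_zero_or_pos m with h0 | h0
      · subst h0; simp at hpos
      · exact h0
    have hmlt : m < ℓ * m := by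
      have := hℓ.one_lt
      nlinarith
    have hdivlt : m / ℓ < ℓ * m := lt_of_le_of_lt (Nat.div_le_self _ _) hmlt
    have key := qCoeff_rel_of_eigen hv ⟨ℓ, hℓ⟩ m
    change qCoeff (⇑v) (m * ℓ) + (if ℓ ∣ N then 0 else if ℓ ∣ m then (ℓ : ℂ) * qCoeff (⇑v) (m / ℓ) else 0) = χ ⟨ℓ, hℓ⟩ * qCoeff (⇑v) m at key
    rw [ih m hmlt, ih (m / ℓ) hdivlt] at key
    rw [mul_comm ℓ m]
    simpa using key

theorem exists_normalized_eigenform {χ : Nat.Primes → ℂ} {v : CuspForm (Gamma0 N) 2}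
    (hv0 : v ≠ 0) (hv : ∀ ℓ, heckeOp N ℓ v = χ ℓ • v) :
    ∃ f : CuspForm (Gamma0 N) 2, f.IsNormalizedEigenform ∧
      ∀ ℓ : Nat.Primes, qCoeff ⇑f ℓ = χ ℓ := by
  have hb1 := qCoeff_one_ne_zero_of_eigen hv0 hv
  set f : CuspForm (Gamma0 N) 2 := (qCoeff ⇑v 1)⁻¹ • v with hf
  have hfv : ∀ ℓ, heckeOp N ℓ f = χ ℓ • f := by
    intro ℓ
    rw [hf, map_smul, hv ℓ, smul_comm]
  have hrel := qCoeff_rel_of_eigen hfv
  have hc1 : qCoeff ⇑f 1 = 1 := by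
    rw [hf, qCoeff_smul, inv_mul_cancel₀ hb1]
  have hχ : ∀ ℓ : Nat.Primes, qCoeff ⇑f ℓ = χ ℓ := by
    intro ℓ
    have key := hrel ℓ 1
    have hnd : ¬ (ℓ : ℕ) ∣ 1 := by
      rw [Nat.dvd_one]
      exact ℓ.2.ne_one
    rw [hc1, one_mul, mul_one, if_neg hnd] at key
    simpa using key
  have heig : FormalHecke.IsEigensystem (fun ℓ : ℕ => if ℓ ∣ N then (0 : ℂ) else (ℓ : ℂ))
      (fun n => qCoeff ⇑f n) := by
    refine ⟨hc1, ?_⟩
    intro ℓ hℓ n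
    have key := hrel ⟨ℓ, hℓ⟩ n
    have hχℓ := hχ ⟨ℓ, hℓ⟩
    change qCoeff (⇑f) (n * ℓ) + (if ℓ ∣ N then 0 else if ℓ ∣ n then (ℓ : ℂ) * qCoeff (⇑f) (n / ℓ) else 0) = χ ⟨ℓ, hℓ⟩ * qCoeff (⇑f) n at key
    change qCoeff (⇑f) ℓ = χ ⟨ℓ, hℓ⟩ at hχℓ
    simp only
    rw [hχℓ, ← key, mul_comm ℓ n]
    congr 1
    split_ifs <;> simp
  obtain ⟨-, hmul, hpow⟩ := formal_isRecursive heig
  refine ⟨f, ⟨hc1, hmul, ?_, ?_⟩, hχ⟩
  · intro p r hp hpN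
    have := hpow p r hp
    simp only [if_neg hpN] at this
    exact this
  · intro p r hp hpN
    have := hpow p r hp
    simp only [if_pos hpN, zero_mul, sub_zero] at this
    exact this

end Fermat.Agent.S49.H44
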