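import Mathlib
import Fermat.Prelude.Def_CuspForm_IntegralLattice
import Fermat.Prelude.Def_FormalHecke_Eigensystem
import Fermat.Prelude.Def_CuspForm_HeckeAlgebra
import Fermat.Prelude.Def_CuspForm_IntegralStructure
import Fermat.Prelude.Thm_CuspForm_mem_intLattice_of_mem_heckeAlgebra
import Fermat.Agent.S49.QCoeff

/-!
# The "congruence ideal" of the Hecke algebra attached to a mod 3 eigenform

For a cusp form `g` with integral q-expansion, `congrIdeal g` is the set of Hecke operators `T`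
such that all q-coefficients of `T g` are integers divisible by `3`.  If `g` is congruent mod 3
to a formal eigensystem, this is a prime ideal with residue field `𝔽₃`.
-/

set_option autoImplicit false
set_option linter.style.haveILetI false

namespace Fermat.Agent.S49

open CuspForm CongruenceSubgroup ModularFormClass EisensteinWeightOne FormalHecke

variable {N : ℕ}

/-- All q-coefficients are integers. -/
def IsIntForm {k : ℤ} (f : CuspForm (Gamma0 N) k) : Prop :=
  ∀ n : ℕ, ∃ m : ℤ, qCoeff ⇑f n = (m : ℂ)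

/-- All q-coefficients are integers divisible by three. -/
def IsThreeDiv {k : ℤ} (f : CuspForm (Gamma0 N) k) : Prop :=
  ∀ n : ℕ, ∃ m : ℤ, qCoeff ⇑f n = 3 * (m : ℂ)

section basic

variable {k : ℤ}

theorem IsIntForm.add {f g : CuspForm (Gamma0 N) k} (hf : IsIntForm f) (hg : IsIntForm g) :
    IsIntForm (f + g) := by
  intro n
  obtain ⟨a, ha⟩ := hf n
  obtain ⟨b, hb⟩ := hg n
  exact ⟨a + b, by rw [qCoeff_add, ha, hb]; push_cast; ring⟩

theorem IsIntForm.zero : IsIntForm (0 : CuspForm (Gamma0 N) k) := by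
  intro n
  exact ⟨0, by rw [qCoeff_zero_form]; simp⟩

theorem IsIntForm.zsmul (c : ℤ) {f : CuspForm (Gamma0 N) k} (hf : IsIntForm f) :
    IsIntForm (c • f) := by
  intro n
  obtain ⟨a, ha⟩ := hf n
  exact ⟨c * a, by rw [qCoeff_zsmul, ha]; push_cast; ring⟩

/-- The submodule of forms with integral q-expansion. -/
def intSub (N : ℕ) (k : ℤ) : Submodule ℤ (CuspForm (Gamma0 N) k) where
  carrier := {f | IsIntForm f}
  add_mem' hf hg := IsIntForm.add hf hg
  zero_mem' := IsIntForm.zero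
  smul_mem' c _ hf := IsIntForm.zsmul c hf

theorem intLattice_eq_intSub (N : ℕ) (k : ℤ) : CuspForm.intLattice N k = intSub N k :=
  Submodule.span_eq (intSub N k)

theorem mem_intLattice_iff_isIntForm (f : CuspForm (Gamma0 N) k) :
    f ∈ CuspForm.intLattice N k ↔ IsIntForm f := by
  rw [intLattice_eq_intSub]
  rfl

theorem mem_qIntegralSet_iff (f : CuspForm (Gamma0 N) 2) :
    f ∈ CuspForm.qIntegralSet N ↔ IsIntForm f := by
  constructor
  · intro hf n
    obtain ⟨m, hm⟩ := Subring.mem_bot.mp (hf n)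
    exact ⟨m, hm.symm⟩
  · intro hf n
    obtain ⟨m, hm⟩ := hf n
    exact Subring.mem_bot.mpr ⟨m, hm.symm⟩

theorem IsThreeDiv.add {f g : CuspForm (Gamma0 N) k} (hf : IsThreeDiv f) (hg : IsThreeDiv g) :
    IsThreeDiv (f + g) := by
  intro n
  obtain ⟨a, ha⟩ := hf n
  obtain ⟨b, hb⟩ := hg n
  exact ⟨a + b, by rw [qCoeff_add, ha, hb]; push_cast; ring⟩

theorem IsThreeDiv.zero : IsThreeDiv (0 : CuspForm (Gamma0 N) k) := by
  intro n
  exact ⟨0, by rw [qCoeff_zero_form]; simp⟩

theorem IsThreeDiv.exists_eq_smul {f : CuspForm (Gamma0 N) k} (hf : IsThreeDiv f) :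
    ∃ h : CuspForm (Gamma0 N) k, IsIntForm h ∧ f = (3 : ℂ) • h := by
  refine ⟨(3 : ℂ)⁻¹ • f, ?_, ?_⟩
  · intro n
    obtain ⟨m, hm⟩ := hf n
    refine ⟨m, ?_⟩
    rw [qCoeff_smul, hm]
    field_simp
  · rw [smul_smul, mul_inv_cancel₀ (by norm_num : (3 : ℂ) ≠ 0), one_smul]

theorem IsIntForm.three_smul {h : CuspForm (Gamma0 N) k} (hh : IsIntForm h) :
    IsThreeDiv ((3 : ℂ) • h) := by
  intro n
  obtain ⟨m, hm⟩ := hh n
  exact ⟨m, by rw [qCoeff_smul, hm]⟩

end basic

section hecke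

variable [NeZero N]

theorem IsIntForm.hecke {T : Module.End ℂ (CuspForm (Gamma0 N) 2)}
    (hT : T ∈ heckeAlgebra N 2 ∅) {f : CuspForm (Gamma0 N) 2} (hf : IsIntForm f) :
    IsIntForm (T f) := by
  rw [← mem_intLattice_iff_isIntForm] at hf ⊢
  exact CuspForm.mem_intLattice_of_mem_heckeAlgebra (by norm_num) hT hf

theorem IsThreeDiv.hecke {T : Module.End ℂ (CuspForm (Gamma0 N) 2)}
    (hT : T ∈ heckeAlgebra N 2 ∅) {f : CuspForm (Gamma0 N) 2} (hf : IsThreeDiv f) :
    IsThreeDiv (T f) := by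
  obtain ⟨h, hh, rfl⟩ := hf.exists_eq_smul
  rw [map_smul]
  exact (hh.hecke hT).three_smul

/-- The congruence ideal of `g`: Hecke operators killing `g` modulo `3`. -/
def congrIdeal (g : CuspForm (Gamma0 N) 2) : Ideal (heckeAlgebra N 2 ∅) where
  carrier := {T | IsThreeDiv ((T : Module.End ℂ (CuspForm (Gamma0 N) 2)) g)}
  add_mem' := by
    intro S T hS hT
    show IsThreeDiv (((S + T : heckeAlgebra N 2 ∅) : Module.End ℂ (CuspForm (Gamma0 N) 2)) g)
    rw [Subalgebra.coe_add, LinearMap.add_apply]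
    exact IsThreeDiv.add hS hT
  zero_mem' := by
    show IsThreeDiv (((0 : heckeAlgebra N 2 ∅) : Module.End ℂ (CuspForm (Gamma0 N) 2)) g)
    rw [Subalgebra.coe_zero, LinearMap.zero_apply]
    exact IsThreeDiv.zero
  smul_mem' := by
    intro S T hT
    show IsThreeDiv (((S * T : heckeAlgebra N 2 ∅) : Module.End ℂ (CuspForm (Gamma0 N) 2)) g)
    rw [Subalgebra.coe_mul, Module.End.mul_apply]
    exact IsThreeDiv.hecke S.2 hT

theorem mem_congrIdeal (g : CuspForm (Gamma0 N) 2) (T : heckeAlgebra N 2 ∅) :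
    T ∈ congrIdeal g ↔ IsThreeDiv ((T : Module.End ℂ (CuspForm (Gamma0 N) 2)) g) := Iff.rfl

end hecke

end Fermat.Agent.S49
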