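import Mathlib
import Fermat.Prelude.Def_CuspForm_IntegralLattice

/-!
# Congruences modulo 3: `χ₋₃(ℓ) ≡ ℓ`, `E₁(χ₋₃) ≡ 1`, and the bridge product
-/

set_option autoImplicit false

namespace Fermat.Agent.S49

open EisensteinWeightOne

theorem chiNegThree_cast_zmod (ℓ : ℕ) : ((chiNegThree ℓ : ℤ) : ZMod 3) = (ℓ : ZMod 3) := by
  have h : ((chiNegThree ℓ : ℤ) : ZMod 3) = (((ℓ : ℕ) : ℤ) : ZMod 3) := by
    rw [ZMod.intCast_eq_intCast_iff_dvd_sub]
    unfold chiNegThree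
    split_ifs <;> omega
  rw [h]
  simp

theorem e1Chi3_map_zmod : PowerSeries.map (Int.castRingHom (ZMod 3)) e1Chi3 = 1 := by
  ext n
  rw [PowerSeries.coeff_map, e1Chi3, PowerSeries.coeff_mk, PowerSeries.coeff_one]
  split_ifs with h
  · simp
  · have : (6 : ZMod 3) = 0 := by decide
    simp [this]

theorem bridgeProduct_coeff_cast_zmod (a : ℕ → ℤ) (n : ℕ) :
    (((bridgeProduct a).coeff n : ℤ) : ZMod 3) = (a n : ZMod 3) := by
  have h1 : (((bridgeProduct a).coeff n : ℤ) : ZMod 3)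
      = (PowerSeries.map (Int.castRingHom (ZMod 3)) (bridgeProduct a)).coeff n := by
    rw [PowerSeries.coeff_map]; rfl
  rw [h1, bridgeProduct, map_mul]
  have h2 : PowerSeries.map (Int.castRingHom (ZMod 3)) (e1Chi3In ℤ) = 1 := by
    rw [e1Chi3In]
    have : PowerSeries.map (Int.castRingHom ℤ) e1Chi3 = e1Chi3 := by
      ext m; simp
    rw [this, e1Chi3_map_zmod]
  rw [h2, mul_one, PowerSeries.coeff_map, PowerSeries.coeff_mk]
  rfl

/-- If `af ≡ bridgeProduct a` modulo 3 coefficientwise then `af ≡ a` modulo 3. -/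
theorem cast_zmod_eq_of_dvd_sub_bridge {a af : ℕ → ℤ}
    (h : ∀ n, (3 : ℤ) ∣ af n - (bridgeProduct a).coeff n) (n : ℕ) :
    ((af n : ℤ) : ZMod 3) = (a n : ZMod 3) := by
  rw [← bridgeProduct_coeff_cast_zmod a n]
  exact (ZMod.intCast_eq_intCast_iff_dvd_sub _ _ 3).mpr (by
    have := h n
    rw [← dvd_neg] at this
    simpa using this)

end Fermat.Agent.S49
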