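import Mathlib
import Fermat.Agent.S49.Ideal
import Fermat.Agent.S49.ModThree

/-!
# The congruence ideal of a mod 3 eigenform is prime
-/

set_option autoImplicit false
set_option linter.style.haveILetI false

namespace Fermat.Agent.S49

open CuspForm CongruenceSubgroup ModularFormClass EisensteinWeightOne FormalHecke

variable {N : ℕ}

/-- `g` has integral q-expansion `af`, congruent modulo 3 to the formal eigensystem `a`. -/
structure ModThreeEigen (g : CuspForm (Gamma0 N) 2) (a af : ℕ → ℤ) : Prop where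
  coeff : ∀ n, qCoeff ⇑g n = (af n : ℂ)
  congr : ∀ n, ((af n : ℤ) : ZMod 3) = (a n : ZMod 3)
  eig : IsEigensystem (fun ℓ => if ℓ ∣ N then (0 : ℤ) else chiNegThree ℓ) a

theorem isThreeDiv_of_coeff {f : CuspForm (Gamma0 N) 2} {b : ℕ → ℤ}
    (hb : ∀ n, qCoeff ⇑f n = (b n : ℂ)) (h0 : ∀ n, ((b n : ℤ) : ZMod 3) = 0) : IsThreeDiv f := by
  intro n
  obtain ⟨m, hm⟩ := (ZMod.intCast_zmod_eq_zero_iff_dvd (b n) 3).mp (h0 n)
  refine ⟨m, ?_⟩
  rw [hb n, hm]
  push_cast
  ring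

theorem cast_zmod_eq_zero_of_isThreeDiv {f : CuspForm (Gamma0 N) 2} {b : ℕ → ℤ}
    (hb : ∀ n, qCoeff ⇑f n = (b n : ℂ)) (hf : IsThreeDiv f) (n : ℕ) :
    ((b n : ℤ) : ZMod 3) = 0 := by
  obtain ⟨m, hm⟩ := hf n
  rw [hb n] at hm
  have : b n = 3 * m := by exact_mod_cast hm
  rw [this]
  push_cast
  have h3 : (3 : ZMod 3) = 0 := by decide
  rw [h3, zero_mul]

theorem IsThreeDiv.zsmul (c : ℤ) {f : CuspForm (Gamma0 N) 2} (hf : IsThreeDiv f) :
    IsThreeDiv (c • f) := by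
  intro n
  obtain ⟨m, hm⟩ := hf n
  exact ⟨c * m, by rw [qCoeff_zsmul, hm]; push_cast; ring⟩

namespace ModThreeEigen

variable {g : CuspForm (Gamma0 N) 2} {a af : ℕ → ℤ}

theorem a_one_cast (hg : ModThreeEigen g a af) : ((af 1 : ℤ) : ZMod 3) = 1 := by
  rw [hg.congr, hg.eig.1]
  simp

theorem dvd_of_isThreeDiv_zsmul (hg : ModThreeEigen g a af) {m : ℤ}
    (hm : IsThreeDiv (m • g)) : (3 : ℤ) ∣ m := by
  have hb : ∀ n, qCoeff ⇑(m • g) n = ((m * af n : ℤ) : ℂ) := by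
    intro n
    rw [qCoeff_zsmul, hg.coeff]
    push_cast
    ring
  have h1 := cast_zmod_eq_zero_of_isThreeDiv (b := fun n => m * af n) hb hm 1
  push_cast at h1
  rw [hg.a_one_cast, mul_one] at h1
  exact (ZMod.intCast_zmod_eq_zero_iff_dvd m 3).mp h1

theorem isThreeDiv_zsmul_of_dvd (hg : ModThreeEigen g a af) {m : ℤ}
    (hm : (3 : ℤ) ∣ m) : IsThreeDiv (m • g) := by
  obtain ⟨k, rfl⟩ := hm
  intro n
  refine ⟨k * af n, ?_⟩
  rw [qCoeff_zsmul, hg.coeff]
  push_cast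
  ring

theorem heckeT_sub (hg : ModThreeEigen g a af) {ℓ : ℕ} (hℓ : ℓ.Prime) (hℓN : ¬ ℓ ∣ N) :
    IsThreeDiv (CuspForm.heckeTLin 2 hℓ hℓN g - (a ℓ) • g) := by
  refine isThreeDiv_of_coeff
    (b := fun n => af (n * ℓ) + (if ℓ ∣ n then (ℓ : ℤ) * af (n / ℓ) else 0) - a ℓ * af n) ?_ ?_
  · intro n
    rw [qCoeff_sub, qCoeff_zsmul, qCoeff_heckeTLin, hg.coeff, hg.coeff, hg.coeff]
    have h21 : ((2 : ℤ) - 1) = 1 := by norm_num
    rw [h21, zpow_one]
    split_ifs <;> push_cast <;> ring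
  · intro n
    have h : a (ℓ * n) + chiNegThree ℓ * (if ℓ ∣ n then a (n / ℓ) else 0) = a ℓ * a n := by
      have := hg.eig.2 ℓ hℓ n
      simpa only [if_neg hℓN] using this
    by_cases hd : ℓ ∣ n
    · rw [if_pos hd] at h
      have h' := congrArg (Int.cast : ℤ → ZMod 3) h
      push_cast at h'
      rw [chiNegThree_cast_zmod] at h'
      show (((af (n * ℓ) + (if ℓ ∣ n then (ℓ : ℤ) * af (n / ℓ) else 0) - a ℓ * af n : ℤ)) : ZMod 3)
        = 0
      rw [if_pos hd]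
      push_cast
      rw [hg.congr, hg.congr, hg.congr, mul_comm n ℓ, ← h']
      ring
    · rw [if_neg hd] at h
      have h' := congrArg (Int.cast : ℤ → ZMod 3) h
      push_cast at h'
      show (((af (n * ℓ) + (if ℓ ∣ n then (ℓ : ℤ) * af (n / ℓ) else 0) - a ℓ * af n : ℤ)) : ZMod 3)
        = 0
      rw [if_neg hd]
      push_cast
      rw [hg.congr, hg.congr, mul_comm n ℓ, ← h']
      ring

theorem heckeU_sub [NeZero N] (hg : ModThreeEigen g a af) {q : ℕ} (hq : q.Prime) (hqN : q ∣ N) :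
    IsThreeDiv (CuspForm.heckeULin 2 hqN g - (a q) • g) := by
  refine isThreeDiv_of_coeff
    (b := fun n => af (n * q) - a q * af n) ?_ ?_
  · intro n
    rw [qCoeff_sub, qCoeff_zsmul, qCoeff_heckeULin hq.ne_zero, hg.coeff, hg.coeff]
    push_cast
    ring
  · intro n
    have h : a (q * n) = a q * a n := by
      have := hg.eig.2 q hq n
      simpa only [if_pos hqN, zero_mul, add_zero] using this
    have h' := congrArg (Int.cast : ℤ → ZMod 3) h
    push_cast at h'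
    show (((af (n * q) - a q * af n : ℤ)) : ZMod 3) = 0
    push_cast
    rw [hg.congr, hg.congr, mul_comm n q, h']
    ring

theorem end_mul_sub_eq (g : CuspForm (Gamma0 N) 2)
    (x y : Module.End ℂ (CuspForm (Gamma0 N) 2)) (m k : ℤ) :
    (x * y) g - (m * k) • g = x (y g - k • g) + k • (x g - m • g) := by
  have h1 : x (k • g) = k • x g := map_zsmul x k g
  rw [Module.End.mul_apply, map_sub, h1, smul_sub, smul_smul, mul_comm k m]
  abel

/-- Every Hecke operator acts on `g` modulo 3 as an integer. -/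
theorem exists_int_sub [NeZero N] (hg : ModThreeEigen g a af)
    {T : Module.End ℂ (CuspForm (Gamma0 N) 2)} (hT : T ∈ heckeAlgebra N 2 ∅) :
    ∃ m : ℤ, IsThreeDiv (T g - m • g) := by
  change T ∈ Algebra.adjoin ℤ (heckeGenerators N 2 ∅) at hT
  induction hT using Algebra.adjoin_induction with
  | mem x hx =>
    rcases hx with ⟨ℓ, hℓ, hℓN, -, rfl⟩ | ⟨q, hqN, hq, -, rfl⟩
    · exact ⟨a ℓ, hg.heckeT_sub hℓ hℓN⟩
    · exact ⟨a q, hg.heckeU_sub hq hqN⟩
  | algebraMap r =>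
    refine ⟨r, ?_⟩
    rw [Module.algebraMap_end_apply, sub_self]
    exact IsThreeDiv.zero
  | add x y _ _ hx hy =>
    obtain ⟨m, hm⟩ := hx
    obtain ⟨k, hk⟩ := hy
    refine ⟨m + k, ?_⟩
    have : (x + y) g - (m + k) • g = (x g - m • g) + (y g - k • g) := by
      rw [LinearMap.add_apply, add_smul]; abel
    rw [this]
    exact hm.add hk
  | mul x y hx' _ hx hy =>
    obtain ⟨m, hm⟩ := hx
    obtain ⟨k, hk⟩ := hy
    refine ⟨m * k, ?_⟩
    rw [end_mul_sub_eq]
    exact (IsThreeDiv.hecke hx' hk).add (hm.zsmul k)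

end ModThreeEigen

variable [NeZero N]

theorem coe_sub_algebraMap_apply (T : heckeAlgebra N 2 ∅) (m : ℤ) (g : CuspForm (Gamma0 N) 2) :
    ((T - algebraMap ℤ (heckeAlgebra N 2 ∅) m : heckeAlgebra N 2 ∅) :
      Module.End ℂ (CuspForm (Gamma0 N) 2)) g
      = (T : Module.End ℂ (CuspForm (Gamma0 N) 2)) g - m • g := by
  rw [Subalgebra.coe_sub, Subalgebra.coe_algebraMap, LinearMap.sub_apply,
    Module.algebraMap_end_apply]

theorem coe_algebraMap_apply (m : ℤ) (g : CuspForm (Gamma0 N) 2) :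
    ((algebraMap ℤ (heckeAlgebra N 2 ∅) m : heckeAlgebra N 2 ∅) :
      Module.End ℂ (CuspForm (Gamma0 N) 2)) g = m • g := by
  rw [Subalgebra.coe_algebraMap, Module.algebraMap_end_apply]

namespace ModThreeEigen

variable {g : CuspForm (Gamma0 N) 2} {a af : ℕ → ℤ}

theorem exists_int_sub_mem (hg : ModThreeEigen g a af) (T : heckeAlgebra N 2 ∅) :
    ∃ m : ℤ, T - algebraMap ℤ (heckeAlgebra N 2 ∅) m ∈ congrIdeal g := by
  obtain ⟨m, hm⟩ := hg.exists_int_sub T.2
  refine ⟨m, ?_⟩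
  rw [mem_congrIdeal, coe_sub_algebraMap_apply]
  exact hm

theorem algebraMap_mem_iff (hg : ModThreeEigen g a af) (m : ℤ) :
    algebraMap ℤ (heckeAlgebra N 2 ∅) m ∈ congrIdeal g ↔ (3 : ℤ) ∣ m := by
  rw [mem_congrIdeal, coe_algebraMap_apply]
  exact ⟨hg.dvd_of_isThreeDiv_zsmul, hg.isThreeDiv_zsmul_of_dvd⟩

theorem heckeT_sub_mem (hg : ModThreeEigen g a af) {ℓ : ℕ} (hℓ : ℓ.Prime) (hℓN : ¬ ℓ ∣ N) :
    heckeAlgebra.T hℓ hℓN (Set.notMem_empty ℓ) - algebraMap ℤ (heckeAlgebra N 2 ∅) (a ℓ)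
      ∈ congrIdeal g := by
  rw [mem_congrIdeal, coe_sub_algebraMap_apply]
  exact hg.heckeT_sub hℓ hℓN

theorem congrIdeal_isPrime (hg : ModThreeEigen g a af) : (congrIdeal g).IsPrime := by
  constructor
  · intro htop
    have h1 : (1 : heckeAlgebra N 2 ∅) ∈ congrIdeal g := by rw [htop]; trivial
    have h2 : algebraMap ℤ (heckeAlgebra N 2 ∅) 1 ∈ congrIdeal g := by
      rwa [map_one]
    have := (hg.algebraMap_mem_iff 1).mp h2
    omega
  · intro S T hST
    obtain ⟨m, hm⟩ := hg.exists_int_sub_mem S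
    obtain ⟨k, hk⟩ := hg.exists_int_sub_mem T
    have hmk : algebraMap ℤ (heckeAlgebra N 2 ∅) (m * k) ∈ congrIdeal g := by
      have e : algebraMap ℤ (heckeAlgebra N 2 ∅) (m * k)
          = S * T - (S - algebraMap ℤ (heckeAlgebra N 2 ∅) m) * T
            - algebraMap ℤ (heckeAlgebra N 2 ∅) m * (T - algebraMap ℤ (heckeAlgebra N 2 ∅) k) := by
        rw [map_mul]; ring
      rw [e]
      exact (congrIdeal g).sub_mem
        ((congrIdeal g).sub_mem hST ((congrIdeal g).mul_mem_right _ hm))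
        ((congrIdeal g).mul_mem_left _ hk)
    have h3 : (3 : ℤ) ∣ m * k := (hg.algebraMap_mem_iff _).mp hmk
    rcases (Int.prime_three.dvd_mul).mp h3 with h | h
    · left
      have : S = (S - algebraMap ℤ (heckeAlgebra N 2 ∅) m) + algebraMap ℤ (heckeAlgebra N 2 ∅) m := by
        ring
      rw [this]
      exact (congrIdeal g).add_mem hm ((hg.algebraMap_mem_iff m).mpr h)
    · right
      have : T = (T - algebraMap ℤ (heckeAlgebra N 2 ∅) k) + algebraMap ℤ (heckeAlgebra N 2 ∅) k := by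
        ring
      rw [this]
      exact (congrIdeal g).add_mem hk ((hg.algebraMap_mem_iff k).mpr h)

end ModThreeEigen

end Fermat.Agent.S49
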