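-- Alternative complete proof of the S49 statement (helper99): Deligne-Serre lifting via the
-- congruence ideal of the Hecke algebra, Artinian rings and associated primes, and lying over.
import Mathlib
import Fermat.Prelude.Def_CuspForm_IntegralLattice
import Fermat.Prelude.Def_FormalHecke_Eigensystem
import Fermat.Prelude.Def_ModularForm_EisensteinChiNegThree
import Fermat.Prelude.Def_FLTPrelim_Modularity
import Fermat.Agent.S49.Formal
import Fermat.Agent.S49.QCoeff
import Fermat.Agent.S49.Lifting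
import Fermat.Agent.S49.Ideal
import Fermat.Agent.S49.ModThree
import Fermat.Agent.S49.Prime
import Fermat.Agent.S49.Eigenform
import Fermat.Agent.S49.H44_Integral

set_option autoImplicit false
open CuspForm EisensteinWeightOne CongruenceSubgroup ModularFormClass


namespace Fermat.Agent.S49

theorem result_alt_h99
    {N : ℕ} [NeZero N] (h : CuspForm.HasIntegralBasis N) {a : ℕ → ℤ}
    (heig : FormalHecke.IsEigensystem
      (fun ℓ => if ℓ ∣ N then 0 else ((chiNegThree ℓ : ℤ) : ℤ)) a)
    (hreal : CuspForm.IsLatticeRealized N a) :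
    ∃ (f : CuspForm (Gamma0 N) 2) (_ : f.IsNormalizedEigenform)
      (𝔪' : Ideal (integralClosure ℤ ℂ)), 𝔪'.IsMaximal ∧
      ((3 : ℕ) : integralClosure ℤ ℂ) ∈ 𝔪' ∧
      ∀ (ℓ : ℕ) (_ : ℓ.Prime) (_ : ¬ ℓ ∣ N),
        ∃ c : integralClosure ℤ ℂ, (c : ℂ) = ModularFormClass.qCoeff f ℓ ∧
          c - (a ℓ : integralClosure ℤ ℂ) ∈ 𝔪' := by
  classical
  obtain ⟨g, -, af, haf, hcongr⟩ := hreal
  -- `g` is a mod 3 eigenform for the formal eigensystem `a`
  have hg : ModThreeEigen g a af :=
    ⟨fun n => (haf n).symm, cast_zmod_eq_of_dvd_sub_bridge hcongr, heig⟩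
  -- finite-dimensionality and the prime congruence ideal
  haveI : FiniteDimensional ℂ (CuspForm (Gamma0 N) 2) := finiteDimensional_of_hasIntegralBasis h
  haveI hprime : (congrIdeal g).IsPrime := hg.congrIdeal_isPrime
  -- a simultaneous eigenvector whose eigencharacter has kernel inside the congruence ideal
  obtain ⟨χ, v, hv0, hv, hker⟩ := exists_eigenvector_character
    ((heckeAlgebra N 2 ∅).val : heckeAlgebra N 2 ∅ →+* Module.End ℂ (CuspForm (Gamma0 N) 2))
    Subtype.val_injective (congrIdeal g)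
  -- lying over: a maximal ideal of the algebraic integers
  obtain ⟨χ', 𝔪, hχ', h𝔪max, hI𝔪⟩ :=
    exists_maximal_over (heckeAlgebra_isIntegral h) χ (congrIdeal g) hker
  -- the normalised eigenform
  obtain ⟨f, hf, hfℓ⟩ := exists_normalized_eigenform χ v hv0 hv
  refine ⟨f, hf, 𝔪, h𝔪max, ?_, ?_⟩
  · have h3 : algebraMap ℤ (heckeAlgebra N 2 ∅) 3 ∈ congrIdeal g :=
      (hg.algebraMap_mem_iff 3).mpr dvd_rfl
    have := hI𝔪 _ h3
    rw [eq_intCast, map_intCast] at this
    exact_mod_cast this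
  · intro ℓ hℓ hℓN
    refine ⟨χ' (heckeAlgebra.T hℓ hℓN (Set.notMem_empty ℓ)), ?_, ?_⟩
    · rw [hχ', hfℓ ℓ hℓ hℓN]
    · have := hI𝔪 _ (hg.heckeT_sub_mem hℓ hℓN)
      rw [map_sub, eq_intCast, map_intCast] at this
      exact this

end Fermat.Agent.S49
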